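import Fermat.Agent.HK.Kummer.Surject
import Fermat.Agent.FF.ConstExt.LaurentDescent
import Fermat.Agent.MF.Coeff.FieldK

/-!
# The Kummer isomorphism `JZero N [n] ≃ parEllHoms N (ℤ/n) ≃ (ℤ/n)^(parRank N)`

Surjectivity descends from `ℂ` because the torsion over `ℂ` is finite.
-/

set_option autoImplicit false
set_option linter.style.haveILetI false

noncomputable section

open AlgebraicCurve ModularCurve CongruenceSubgroup

namespace Fermat.Agent.HK

open Fermat.Agent.FF.ConstExt

section General

variable {L : Type*} [Field L] [Algebra ℚ L] [IsAlgClosed L] (e : L →+* ℂ)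
variable (N : ℕ) [NeZero N] (n : ℕ) [NeZero n]

theorem kummerMap_surjective : Function.Surjective (kummerMap e N n) := by
  intro φ
  obtain ⟨z, rfl⟩ := kummerMap_id_surjective N n φ
  letI : Algebra L ℂ := e.toAlgebra
  letI := baseChangeAlgebra L ℂ (modularFunctionFieldFull N)
  letI := baseChangeAlgebraBase L ℂ (modularFunctionFieldFull N)
  haveI := baseChange_isScalarTower_left L ℂ (modularFunctionFieldFull N)
  haveI := baseChange_isScalarTower_right L ℂ (modularFunctionFieldFull N)
  haveI := isConstExt_baseChange L ℂ (modularFunctionFieldFull N)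
  haveI : FF.IsFunctionField L (laurentBaseChange L (modularFunctionFieldFull N)) :=
    (MF.PlaceOrbits.jData e N).isFunctionField
  haveI := finite_torsion_complex N n
  obtain ⟨z₀, hz₀, he⟩ := (bijOn_extPic0_torsion (K := L)
    (F := laurentBaseChange L (modularFunctionFieldFull N)) ℂ
    (laurentBaseChange ℂ (modularFunctionFieldFull N)) n).surjOn z.2
  refine ⟨⟨z₀, hz₀⟩, ?_⟩
  obtain ⟨D, f, hD, hf, hDf, hφ⟩ := exists_kummer_data e N n ⟨z₀, hz₀⟩
  symm
  refine kummerMap_eq (RingHom.id ℂ) N n
    (D := extDegZero ℂ (laurentBaseChange ℂ (modularFunctionFieldFull N)) D) (z := z)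
    (f := algebraMap _ _ f) ?_ (by simpa using hf) (fun v => ?_) ?_
  · rw [← extPic0_mk, hD]
    exact he
  · rw [coe_extDegZero, ← map_nsmul]
    exact extDivisor_apply_eq_ord ℂ _ hDf v
  · rw [coeffMap_id]
    exact hφ

theorem kummerMap_bijective : Function.Bijective (kummerMap e N n) :=
  ⟨kummerMap_injective e N n, kummerMap_surjective e N n⟩

theorem natCard_torsion_eq_pow (e : L →+* ℂ) :
    Nat.card (Pic0.torsion L (laurentBaseChange L (modularFunctionFieldFull N)) n)
      = n ^ MF.ParHom.parRank N := by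
  rw [← MF.ParHom.card_parEllHoms_zmod]
  exact Nat.card_congr (Equiv.ofBijective _ (kummerMap_bijective e N n))

end General

variable (N : ℕ) [NeZero N] (n : ℕ) [NeZero n]

local notation "Qbar" => AlgebraicClosure ℚ

theorem jKummer_bijective : Function.Bijective (jKummer N n) :=
  kummerMap_bijective qbarEmb N n

theorem jKummer_surjective : Function.Surjective (jKummer N n) :=
  (jKummer_bijective N n).2

/-- The Kummer isomorphism `JZero N [n] ≅ parEllHoms N (ℤ/n)`. -/
def jKummerEquiv : Pic0.torsion Qbar (modularFunctionFieldBar N) n ≃+ parEllHoms N (ZMod n) :=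
  AddEquiv.ofBijective (jKummer N n) (jKummer_bijective N n)

@[simp]
theorem jKummerEquiv_apply (z : Pic0.torsion Qbar (modularFunctionFieldBar N) n) :
    jKummerEquiv N n z = jKummer N n z :=
  rfl

/-- `JZero N [n] ≅ (ℤ/n) ^ parRank N`. -/
def jTorsionEquiv :
    Pic0.torsion Qbar (modularFunctionFieldBar N) n ≃+ (Fin (MF.ParHom.parRank N) → ZMod n) :=
  (jKummerEquiv N n).trans (MF.ParHom.parEllEquiv N (ZMod n))

/-- `#JZero N [n] = n ^ parRank N`. -/
theorem natCard_jZero_torsion :
    Nat.card (Pic0.torsion Qbar (modularFunctionFieldBar N) n) = n ^ MF.ParHom.parRank N :=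
  natCard_torsion_eq_pow N n qbarEmb

end Fermat.Agent.HK
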