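import Fermat.Prelude.Def_ModularCurve_LaurentCoeff
import Mathlib.RingTheory.PowerSeries.Inverse
import Mathlib.RingTheory.Henselian
import Mathlib.RingTheory.LaurentSeries
import Mathlib.RingTheory.RootsOfUnity.AlgebraicallyClosed
import Mathlib.RingTheory.AdicCompletion.Basic
import Mathlib.RingTheory.PowerSeries.Ideal
import Mathlib.RingTheory.AdicCompletion.Completeness
import Mathlib.RingTheory.Polynomial.Basic

/-!
# Coefficient descent of `n`-th roots of Laurent series
-/

set_option autoImplicit false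

noncomputable section

namespace Fermat.Agent.HK

open Polynomial (C X monic_X_pow_sub_C derivative_X_pow IsRoot eval_sub eval_pow eval_X eval_C)

/-- Over an algebraically closed field of characteristic zero, a unit of `K⟦X⟧` is an `n`-th
power. -/
theorem powerSeries_exists_pow_eq {K : Type*} [Field K] [IsAlgClosed K] [CharZero K] {n : ℕ}
    (hn : n ≠ 0) (g : PowerSeries K) (hg : PowerSeries.constantCoeff g ≠ 0) :
    ∃ t : PowerSeries K, t ^ n = g := by
  obtain ⟨c, hc⟩ := IsAlgClosed.exists_pow_nat_eq (PowerSeries.constantCoeff g)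
    (Nat.pos_of_ne_zero hn)
  have hc0 : c ≠ 0 := fun h => hg (by rw [← hc, h, zero_pow hn])
  have : HenselianRing (PowerSeries K) (Ideal.span {(PowerSeries.X : PowerSeries K)}) :=
    IsAdicComplete.henselianRing _ _
  obtain ⟨t, ht, -⟩ := HenselianRing.is_henselian (I := Ideal.span {(PowerSeries.X : PowerSeries K)})
    (Polynomial.X ^ n - Polynomial.C g) (monic_X_pow_sub_C g hn) (PowerSeries.C c)
    (by
      rw [Ideal.mem_span_singleton, PowerSeries.X_dvd_iff]
      simp [hc])
    (by
      refine IsUnit.map (Ideal.Quotient.mk _) ?_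
      rw [PowerSeries.isUnit_iff_constantCoeff, isUnit_iff_ne_zero]
      simp [derivative_X_pow, hn, hc0])
  refine ⟨t, ?_⟩
  have h := ht
  simp only [IsRoot, eval_sub, eval_pow, eval_X, eval_C, sub_eq_zero] at h
  exact h

/-- An `n`-th power in `K((q))`: the order is divisible by `n`. -/
theorem laurent_exists_pow_eq_iff {K : Type*} [Field K] [IsAlgClosed K] [CharZero K] {n : ℕ}
    (hn : n ≠ 0) (f : LaurentSeries K) :
    (∃ t : LaurentSeries K, t ^ n = f) ↔ (n : ℤ) ∣ f.order := by
  constructor
  · rintro ⟨t, rfl⟩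
    rw [HahnSeries.order_pow]
    exact ⟨t.order, by simp⟩
  · rintro ⟨d, hd⟩
    rcases eq_or_ne f 0 with rfl | hf
    · exact ⟨0, zero_pow hn⟩
    have h0 : PowerSeries.constantCoeff f.powerSeriesPart ≠ 0 := by
      rw [← PowerSeries.coeff_zero_eq_constantCoeff_apply, LaurentSeries.powerSeriesPart_coeff,
        Nat.cast_zero, add_zero]
      exact HahnSeries.coeff_order_eq_zero.not.2 hf
    obtain ⟨t, ht⟩ := powerSeries_exists_pow_eq hn f.powerSeriesPart h0
    refine ⟨HahnSeries.single d 1 * HahnSeries.ofPowerSeries ℤ K t, ?_⟩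
    rw [mul_pow, HahnSeries.single_pow, one_pow, ← map_pow, ht, nsmul_eq_mul, ← hd]
    exact LaurentSeries.single_order_mul_powerSeriesPart f

theorem order_coeffMap {L K : Type*} [Field L] [Field K] (e : L →+* K) (f : LaurentSeries L) :
    (ModularCurve.coeffMap e f).order = f.order := by
  rcases eq_or_ne f 0 with rfl | hf
  · rw [map_zero, HahnSeries.order_zero, HahnSeries.order_zero]
  have he : ModularCurve.coeffMap e f ≠ 0 := (map_ne_zero _).2 hf
  refine le_antisymm (HahnSeries.order_le_of_coeff_ne_zero ?_)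
    (HahnSeries.order_le_of_coeff_ne_zero ?_)
  · rw [ModularCurve.coeffMap_coeff, ne_eq, map_eq_zero]
    exact HahnSeries.coeff_order_eq_zero.not.2 hf
  · intro h
    refine HahnSeries.coeff_order_eq_zero.not.2 he ?_
    rw [ModularCurve.coeffMap_coeff, h, map_zero]

/-- An `n`-th root of a series with coefficients in an algebraically closed `L` has coefficients
in `L`. -/
theorem exists_coeffMap_eq_of_pow_eq {L K : Type*} [Field L] [Field K] [IsAlgClosed L]
    [CharZero L] [IsAlgClosed K] [CharZero K] (e : L →+* K) {n : ℕ} (hn : n ≠ 0)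
    {f : LaurentSeries L} {t : LaurentSeries K} (h : t ^ n = ModularCurve.coeffMap e f) :
    ∃ t₀ : LaurentSeries L, t₀ ^ n = f ∧ ModularCurve.coeffMap e t₀ = t := by
  rcases eq_or_ne f 0 with rfl | hf
  · rw [map_zero, pow_eq_zero_iff hn] at h
    exact ⟨0, zero_pow hn, by rw [map_zero, h]⟩
  obtain ⟨s, hs⟩ := (laurent_exists_pow_eq_iff hn f).2
    (order_coeffMap e f ▸ (laurent_exists_pow_eq_iff hn _).1 ⟨t, h⟩)
  have hs0 : ModularCurve.coeffMap e s ≠ 0 := by
    rw [map_ne_zero]
    rintro rfl
    exact hf (by rw [← hs, zero_pow hn])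
  have hq : (t / ModularCurve.coeffMap e s) ^ n = 1 := by
    rw [div_pow, h, ← map_pow, hs, div_self ((map_ne_zero _).2 hf)]
  have : NeZero n := ⟨hn⟩
  obtain ⟨ζ, hζ⟩ := HasEnoughRootsOfUnity.exists_primitiveRoot L n
  have hζ' : IsPrimitiveRoot
      (algebraMap K (LaurentSeries K) (e ζ)) n :=
    (hζ.map_of_injective e.injective).map_of_injective (algebraMap K (LaurentSeries K)).injective
  obtain ⟨i, -, hi⟩ := hζ'.eq_pow_of_pow_eq_one hq
  refine ⟨algebraMap L (LaurentSeries L) (ζ ^ i) * s, ?_, ?_⟩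
  · rw [mul_pow, hs, ← map_pow, ← pow_mul, mul_comm i n, pow_mul, hζ.pow_eq_one, one_pow,
      map_one, one_mul]
  · rw [← map_pow, ← map_pow] at hi
    rw [map_mul, ModularCurve.algebraMap_laurentSeries_eq_single, ModularCurve.coeffMap_single,
      ← ModularCurve.algebraMap_laurentSeries_eq_single, hi, div_mul_cancel₀ _ hs0]

end Fermat.Agent.HK
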