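import Fermat.Agent.HK.Kummer.Admissible
import Fermat.Agent.HK.Kummer.CoeffRoot
import Fermat.Agent.HK.Realize
import Fermat.Agent.MF.Coeff.BaseChange
import Fermat.Agent.MF.Field
import Fermat.Agent.MF.ParHom.ParEll
import Fermat.Prelude.Def_AlgebraicCurve_BaseChangeGalois

/-!
# The Kummer map `Pic⁰[n] → Hom_{par,ell}(Γ₀(N), ℤ/n)` for modular function fields

`L` is an algebraically closed field with an embedding `e : L →+* ℂ`.
-/

set_option autoImplicit false

noncomputable section

open AlgebraicCurve ModularCurve CongruenceSubgroup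
open scoped MatrixGroups

namespace Fermat.Agent.HK

open Fermat.Agent.MF (MForm MFField qL)

variable {L : Type*} [Field L] [Algebra ℚ L] [IsAlgClosed L] (e : L →+* ℂ)
variable (N : ℕ) [NeZero N] (n : ℕ) [NeZero n]

/-- The function field of `X₀(N)` over `L`. -/
local notation "F_L" => laurentBaseChange L (modularFunctionFieldFull N)

omit [IsAlgClosed L] in
theorem toMFField_algebraMap (c : L) :
    (toMFField e N (algebraMap L F_L c) : LaurentSeries ℂ)
      = algebraMap ℂ (LaurentSeries ℂ) (e c) := by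
  rw [coe_toMFField]
  exact MF.Coeff.coeffMap_algebraMap' e c

omit [IsAlgClosed L] in
theorem exists_toMFField_algebraMap (c : L) : ∃ d : ℂ,
    (toMFField e N (algebraMap L F_L c) : LaurentSeries ℂ) = algebraMap ℂ (LaurentSeries ℂ) d :=
  ⟨e c, toMFField_algebraMap e N c⟩

omit [IsAlgClosed L] in
theorem hasConstantUnits_modular (e : L →+* ℂ) : HasConstantUnits L F_L := by
  intro f hf hord
  obtain ⟨c, hc⟩ := exists_const_of_ord_eq_zero (toMFField e N) (exists_toMFField_algebraMap e N)
    hf hord
  refine ⟨(f : LaurentSeries L).coeff 0, Subtype.ext ?_⟩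
  show (f : LaurentSeries L) = algebraMap L (LaurentSeries L) _
  rw [algebraMap_laurentSeries_eq_single]
  rw [coe_toMFField, algebraMap_laurentSeries_eq_single] at hc
  ext i
  have h := congrArg (fun x : LaurentSeries ℂ => x.coeff i) hc
  simp only [coeffMap_coeff] at h
  rcases eq_or_ne i 0 with rfl | hi
  · rw [HahnSeries.coeff_single_same]
  · rw [HahnSeries.coeff_single_of_ne hi] at h ⊢
    exact (map_eq_zero e).1 h

/-- The Kummer relation on `F_L`. -/
def kummerRel (f : F_L) (φ : parEllHoms N (ZMod n)) : Prop :=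
  IsKummer N (toMFField e N f : LaurentSeries ℂ) (φ : Additive (Gamma0 N) →+ ZMod n)

omit [IsAlgClosed L] in
theorem isKummerRel_kummerRel : IsKummerRel L n (kummerRel e N n) where
  exists_rel _ hf := exists_isKummer (toMFField e N) (exists_toMFField_algebraMap e N) hf
  unique _ _ _ ha hb := Subtype.ext (ha.unique hb)
  mul f g a b ha hb := by
    show IsKummer N (toMFField e N (f * g) : LaurentSeries ℂ) _
    rw [map_mul]
    exact ha.mul hb
  pow t ht := by
    obtain ⟨k, a, b, hb, hx⟩ := (toMFField e N t).2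
    have ha : a ≠ 0 := by
      rintro rfl
      rw [FunLike.coe_zero, MF.qL_zero, zero_div] at hx
      exact (map_ne_zero (toMFField e N)).2 ht (Subtype.ext hx)
    show IsKummer N (toMFField e N (t ^ n) : LaurentSeries ℂ) _
    rw [map_pow, SubmonoidClass.coe_pow, hx]
    exact isKummer_pow ha hb
  const c hc := by
    show IsKummer N (toMFField e N (algebraMap L F_L c) : LaurentSeries ℂ) _
    rw [toMFField_algebraMap]
    exact isKummer_const ((map_ne_zero e).2 hc)

/-- The Kummer map over the coefficient field `L`. -/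
def kummerMap : Pic0.torsion L F_L n →+ parEllHoms N (ZMod n) :=
  (isKummerRel_kummerRel e N n).hom (hasConstantUnits_modular N e)

omit [IsAlgClosed L] in
/-- Characterisation: `n D = div f` and `f` has Kummer character `φ`. -/
theorem kummerMap_eq {z : Pic0.torsion L F_L n} {D : Divisor.degZero (K := L) (F := F_L)}
    (hD : Pic0.mk D = (z : Pic0 L F_L)) {f : F_L} (hf : f ≠ 0)
    (hDf : ∀ v, (n • (D : Divisor L F_L)) v = v.ord f) {φ : parEllHoms N (ZMod n)}
    (hφ : IsKummer N (coeffMap e (f : LaurentSeries L)) (φ : Additive (Gamma0 N) →+ ZMod n)) :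
    kummerMap e N n z = φ :=
  (isKummerRel_kummerRel e N n).hom_eq _ hD hf hDf hφ

omit [IsAlgClosed L] in
theorem exists_kummer_data (z : Pic0.torsion L F_L n) :
    ∃ (D : Divisor.degZero (K := L) (F := F_L)) (f : F_L),
      Pic0.mk D = (z : Pic0 L F_L) ∧ f ≠ 0 ∧ (∀ v, (n • (D : Divisor L F_L)) v = v.ord f) ∧
      IsKummer N (coeffMap e (f : LaurentSeries L))
        (kummerMap e N n z : Additive (Gamma0 N) →+ ZMod n) := by
  obtain ⟨D, f, hD, hf, hDf⟩ := exists_function_of_torsion z
  obtain ⟨φ, hφ⟩ := (isKummerRel_kummerRel e N n).exists_rel f (isOrdDivisible_of_nsmul_eq hf hDf)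
  exact ⟨D, f, hD, hf, hDf, by rw [kummerMap_eq e N n hD hf hDf hφ]; exact hφ⟩

omit [IsAlgClosed L] [NeZero n] in
theorem mem_laurentBaseChange_of_coeffMap_mem {x : LaurentSeries L}
    (hx : coeffMap e x ∈ MFField N) : x ∈ laurentBaseChange L (modularFunctionFieldFull N) := by
  rw [MF.MFField_eq_laurentBaseChange, MF.Coeff.laurentBaseChange_eq_bc,
    show algebraMap ℚ ℂ = e.comp (algebraMap ℚ L) from Subsingleton.elim _ _,
    ← MF.Coeff.bc_bc, MF.Coeff.coeffMap_mem_bc_iff] at hx
  exact hx

theorem kummerMap_injective : Function.Injective (kummerMap e N n) := by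
  refine IsKummerRel.hom_injective _ _ (NeZero.ne n) fun f _ hf => ?_
  obtain ⟨t, ht⟩ := exists_pow_of_isKummer_zero hf
  have h : (t : LaurentSeries ℂ) ^ n = coeffMap e (f : LaurentSeries L) :=
    ((congrArg Subtype.val ht).trans (SubmonoidClass.coe_pow t n)).symm
  have : CharZero L := charZero_of_injective_algebraMap (algebraMap ℚ L).injective
  obtain ⟨t₀, h₀, h₁⟩ := exists_coeffMap_eq_of_pow_eq e (NeZero.ne n) h
  exact ⟨⟨t₀, mem_laurentBaseChange_of_coeffMap_mem e N (h₁ ▸ t.2)⟩, Subtype.ext h₀.symm⟩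

theorem finite_torsion (e : L →+* ℂ) : Finite (Pic0.torsion L F_L n) :=
  Finite.of_injective _ (kummerMap_injective e N n)

theorem natCard_torsion_le (e : L →+* ℂ) :
    Nat.card (Pic0.torsion L F_L n) ≤ n ^ MF.ParHom.parRank N := by
  rw [← MF.ParHom.card_parEllHoms_zmod]
  exact Nat.card_le_card_of_injective _ (kummerMap_injective e N n)

end Fermat.Agent.HK
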