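import Fermat.Agent.FF.Basic
import Fermat.Agent.MF.PlaceOrbits.Abstract

/-!
# Kummer homomorphisms on torsion divisor classes

A relation `R f a` between nonzero functions with `n`-divisible divisor and elements of a group
`A`, functional, multiplicative, trivial on constants and `n`-th powers, gives a homomorphism
`Pic⁰[n] → A`.
-/

set_option autoImplicit false

noncomputable section

open AlgebraicCurve

namespace Fermat.Agent.HK

variable {K F : Type*} [Field K] [Field F] [Algebra K F]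

/-- All orders of `f` are divisible by `n`, and `f ≠ 0`. -/
def IsOrdDivisible (K : Type*) {F : Type*} [Field K] [Field F] [Algebra K F] (n : ℕ) (f : F) :
    Prop :=
  f ≠ 0 ∧ ∀ v : Place K F, (n : ℤ) ∣ v.ord f

/-- The data of a Kummer relation. -/
structure IsKummerRel (K : Type*) {F : Type*} [Field K] [Field F] [Algebra K F] (n : ℕ)
    {A : Type*} [AddCommGroup A] (R : F → A → Prop) : Prop where
  exists_rel : ∀ f, IsOrdDivisible K n f → ∃ a, R f a
  unique : ∀ f a b, R f a → R f b → a = b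
  mul : ∀ f g a b, R f a → R g b → R (f * g) (a + b)
  pow : ∀ t : F, t ≠ 0 → R (t ^ n) 0
  const : ∀ c : K, c ≠ 0 → R (algebraMap K F c) 0

/-- Functions all of whose orders vanish are constants. -/
def HasConstantUnits (K F : Type*) [Field K] [Field F] [Algebra K F] : Prop :=
  ∀ f : F, f ≠ 0 → (∀ v : Place K F, v.ord f = 0) → ∃ c : K, f = algebraMap K F c

variable {n : ℕ} {A : Type*} [AddCommGroup A] {R : F → A → Prop}

theorem isOrdDivisible_of_nsmul_eq {D : Divisor K F} {f : F} (hf : f ≠ 0)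
    (h : ∀ v, (n • D) v = v.ord f) : IsOrdDivisible K n f :=
  ⟨hf, fun v => ⟨D v, by rw [← h v]; simp⟩⟩

theorem exists_function_of_torsion (z : Pic0.torsion K F n) :
    ∃ (D : Divisor.degZero (K := K) (F := F)) (f : F), Pic0.mk D = (z : Pic0 K F) ∧ f ≠ 0 ∧
      ∀ v, (n • (D : Divisor K F)) v = v.ord f := by
  obtain ⟨D, hD⟩ := Pic0.mk_surjective (z : Pic0 K F)
  have h : Pic0.mk (n • D) = 0 := by
    have h1 := Pic0.mem_torsion.1 z.2
    rw [← hD, natCast_zsmul] at h1
    exact h1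
  rw [Pic0.mk, QuotientAddGroup.eq_zero_iff, AddSubgroup.mem_addSubgroupOf,
    AddSubgroup.coe_nsmul, Divisor.mem_principal] at h
  obtain ⟨f, hf, hfD⟩ := h
  exact ⟨D, f, hD, hf, hfD⟩

theorem IsKummerRel.eq_of_mk_eq (hR : IsKummerRel K n R) (hc : HasConstantUnits K F)
    {D E : Divisor.degZero (K := K) (F := F)} (hDE : Pic0.mk D = Pic0.mk E) {f g : F}
    (hf : f ≠ 0) (hg : g ≠ 0) (hDf : ∀ v, (n • (D : Divisor K F)) v = v.ord f)
    (hEg : ∀ v, (n • (E : Divisor K F)) v = v.ord g) {a b : A} (ha : R f a) (hb : R g b) :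
    a = b := by
  have h : Pic0.mk (E - D) = 0 := by
    show QuotientAddGroup.mk (E - D) = 0
    rw [QuotientAddGroup.mk_sub]
    exact sub_eq_zero.2 hDE.symm
  rw [Pic0.mk, QuotientAddGroup.eq_zero_iff, AddSubgroup.mem_addSubgroupOf,
    AddSubgroup.coe_sub, Divisor.mem_principal] at h
  obtain ⟨t, ht, htD⟩ := h
  have hne : g / (f * t ^ n) ≠ 0 := div_ne_zero hg (mul_ne_zero hf (pow_ne_zero n ht))
  obtain ⟨c, hc⟩ := hc _ hne fun v => by
    rw [FF.ord_div v hg (mul_ne_zero hf (pow_ne_zero n ht)), v.ord_mul hf (pow_ne_zero n ht),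
      FF.ord_pow, ← hEg v, ← hDf v, ← htD v]
    simp only [Finsupp.coe_smul, Pi.smul_apply, Finsupp.coe_sub, Pi.sub_apply, nsmul_eq_mul]
    ring
  have hc0 : c ≠ 0 := fun h0 => hne (by rw [hc, h0, map_zero])
  rw [div_eq_iff (mul_ne_zero hf (pow_ne_zero n ht))] at hc
  have h1 := hR.mul _ _ _ _ (hR.const c hc0) (hR.mul _ _ _ _ ha (hR.pow t ht))
  rw [← hc, zero_add, add_zero] at h1
  exact hR.unique g _ _ h1 hb

variable (hR : IsKummerRel K n R) (hc : HasConstantUnits K F)

/-- The value of a Kummer relation on a torsion class. -/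
def IsKummerRel.value (z : Pic0.torsion K F n) : A :=
  (hR.exists_rel _ (isOrdDivisible_of_nsmul_eq
    (exists_function_of_torsion z).choose_spec.choose_spec.2.1
    (exists_function_of_torsion z).choose_spec.choose_spec.2.2)).choose

include hc in
theorem IsKummerRel.value_eq {z : Pic0.torsion K F n} {D : Divisor.degZero (K := K) (F := F)}
    (hD : Pic0.mk D = (z : Pic0 K F)) {f : F} (hf : f ≠ 0)
    (hDf : ∀ v, (n • (D : Divisor K F)) v = v.ord f) {a : A} (ha : R f a) : hR.value z = a := by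
  obtain ⟨hE, hg, hEg⟩ := (exists_function_of_torsion z).choose_spec.choose_spec
  exact hR.eq_of_mk_eq hc (hE.trans hD.symm) hg hf hEg hDf
    (hR.exists_rel _ (isOrdDivisible_of_nsmul_eq hg hEg)).choose_spec ha

/-- The Kummer homomorphism `Pic⁰[n] → A`. -/
def IsKummerRel.hom : Pic0.torsion K F n →+ A :=
  AddMonoidHom.mk' hR.value fun x y => by
    obtain ⟨D, f, hD, hf, hDf⟩ := exists_function_of_torsion x
    obtain ⟨E, g, hE, hg, hEg⟩ := exists_function_of_torsion y
    obtain ⟨a, ha⟩ := hR.exists_rel f (isOrdDivisible_of_nsmul_eq hf hDf)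
    obtain ⟨b, hb⟩ := hR.exists_rel g (isOrdDivisible_of_nsmul_eq hg hEg)
    rw [hR.value_eq hc hD hf hDf ha, hR.value_eq hc hE hg hEg hb]
    refine hR.value_eq hc (D := D + E) (f := f * g) ?_ (mul_ne_zero hf hg) (fun v => ?_)
      (hR.mul _ _ _ _ ha hb)
    · rw [Pic0.mk_add, hD, hE, AddSubgroup.coe_add]
    · rw [v.ord_mul hf hg, ← hDf v, ← hEg v, AddSubgroup.coe_add, smul_add, Finsupp.add_apply]

theorem IsKummerRel.hom_eq {z : Pic0.torsion K F n} {D : Divisor.degZero (K := K) (F := F)}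
    (hD : Pic0.mk D = (z : Pic0 K F)) {f : F} (hf : f ≠ 0)
    (hDf : ∀ v, (n • (D : Divisor K F)) v = v.ord f) {a : A} (ha : R f a) : hR.hom hc z = a :=
  hR.value_eq hc hD hf hDf ha

theorem IsKummerRel.hom_injective (hn : n ≠ 0)
    (hinj : ∀ f, IsOrdDivisible K n f → R f 0 → ∃ t : F, f = t ^ n) :
    Function.Injective (hR.hom hc) := by
  rw [injective_iff_map_eq_zero]
  intro z hz
  obtain ⟨D, f, hD, hf, hDf⟩ := exists_function_of_torsion z
  have hdiv := isOrdDivisible_of_nsmul_eq hf hDf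
  obtain ⟨a, ha⟩ := hR.exists_rel f hdiv
  rw [hR.hom_eq hc hD hf hDf ha] at hz
  subst hz
  obtain ⟨t, rfl⟩ := hinj f hdiv ha
  refine Subtype.ext (hD.symm.trans ?_)
  rw [AddSubgroup.coe_zero, Pic0.mk, QuotientAddGroup.eq_zero_iff, AddSubgroup.mem_addSubgroupOf,
    Divisor.mem_principal]
  have ht : t ≠ 0 := fun h => hf (by rw [h, zero_pow hn])
  refine ⟨t, ht, fun v => ?_⟩
  have h := hDf v
  rw [FF.ord_pow] at h
  simp only [Finsupp.coe_smul, Pi.smul_apply, nsmul_eq_mul] at h
  exact mul_left_cancel₀ (Nat.cast_ne_zero.2 hn) h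

theorem IsKummerRel.hom_surjective [HasPrincipalDivisors K F] (hn : n ≠ 0)
    (hsurj : ∀ a, ∃ f, IsOrdDivisible K n f ∧ R f a) : Function.Surjective (hR.hom hc) := by
  intro a
  obtain ⟨f, ⟨hf, hdiv⟩, ha⟩ := hsurj a
  obtain ⟨E, hE, hEdeg⟩ := HasPrincipalDivisors.exists_divisor (K := K) f hf
  let D : Divisor K F := E.mapRange (fun m => m / (n : ℤ)) (by simp)
  have hD : n • D = E := by
    ext v
    simp only [Finsupp.coe_smul, Pi.smul_apply, D, Finsupp.mapRange_apply, nsmul_eq_mul]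
    exact Int.mul_ediv_cancel' (hE v ▸ hdiv v)
  have hDdeg : D ∈ Divisor.degZero (K := K) (F := F) := by
    rw [Divisor.mem_degZero]
    have h := congrArg Divisor.degree hD
    rw [map_nsmul, hEdeg] at h
    exact (smul_eq_zero.1 h).resolve_left hn
  have hmem : Pic0.mk (⟨D, hDdeg⟩ : Divisor.degZero (K := K) (F := F)) ∈ Pic0.torsion K F n := by
    rw [Pic0.mem_torsion, natCast_zsmul]
    show (QuotientAddGroup.mk (n • (⟨D, hDdeg⟩ : Divisor.degZero (K := K) (F := F)))) = _
    rw [QuotientAddGroup.eq_zero_iff, AddSubgroup.mem_addSubgroupOf, AddSubgroup.coe_nsmul,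
      Divisor.mem_principal]
    exact ⟨f, hf, fun v => by rw [hD]; exact hE v⟩
  exact ⟨⟨_, hmem⟩, hR.hom_eq hc rfl hf (fun v => by rw [hD]; exact hE v) ha⟩

/-- A discrete valuation-like function `ν` on `F`, trivial on constants, sees a function with
`n`-divisible divisor as `n` times the value of some function. -/
theorem exists_eq_mul_of_isOrdDivisible (ν : F → ℤ)
    (hmul : ∀ x y, x ≠ 0 → y ≠ 0 → ν (x * y) = ν x + ν y)
    (hadd : ∀ x y, x ≠ 0 → y ≠ 0 → x + y ≠ 0 → min (ν x) (ν y) ≤ ν (x + y))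
    (hconst : ∀ c : K, c ≠ 0 → ν (algebraMap K F c) = 0) {f : F}
    (hf : IsOrdDivisible K n f) : ∃ y : F, y ≠ 0 ∧ ν f = n * ν y := by
  classical
  by_cases htriv : ∀ x : F, x ≠ 0 → ν x = 0
  · exact ⟨1, one_ne_zero, by rw [htriv f hf.1, htriv 1 one_ne_zero, mul_zero]⟩
  push Not at htriv
  obtain ⟨x, hx, hνx⟩ := htriv
  have hν1 : ν 1 = 0 := by simpa using hmul 1 1 one_ne_zero one_ne_zero
  let w : Valuation F (WithZero (Multiplicative ℤ)) :=
    { toFun := fun x => if x = 0 then 0 else WithZero.exp (-ν x)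
      map_zero' := by simp
      map_one' := by simp [hν1]
      map_mul' := fun x y => by
        rcases eq_or_ne x 0 with rfl | hx
        · simp
        rcases eq_or_ne y 0 with rfl | hy
        · simp
        simp only [mul_eq_zero, hx, hy, or_self, if_false]
        rw [hmul x y hx hy, neg_add, WithZero.exp_add]
      map_add_le_max' := fun x y => by
        rcases eq_or_ne x 0 with rfl | hx
        · simp
        rcases eq_or_ne y 0 with rfl | hy
        · simp
        rcases eq_or_ne (x + y) 0 with hxy | hxy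
        · simp [hxy]
        simp only [hx, hy, hxy, if_false, le_max_iff, WithZero.exp_le_exp, neg_le_neg_iff]
        exact min_le_iff.1 (hadd x y hx hy hxy) }
  have hw : ∀ x : F, x ≠ 0 → w x = WithZero.exp (-ν x) := fun x hx => if_neg hx
  have hK : ∀ a : K, a ≠ 0 → w (algebraMap K F a) = 1 := fun a ha => by
    rw [hw _ (by simpa using ha), hconst a ha]; simp
  have hnt : ∃ x : F, w x ≠ 0 ∧ w x ≠ 1 := ⟨x, by rw [hw x hx]; exact WithZero.exp_ne_zero, by
    rw [hw x hx, ← WithZero.exp_zero, ne_eq, WithZero.exp_injective.eq_iff]; simpa using hνx⟩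
  obtain ⟨d, -, hd⟩ := MF.PlaceOrbits.exists_scale_placeOfVal w hK hnt
  have hν : ∀ x : F, x ≠ 0 → ν x = d * (MF.PlaceOrbits.placeOfVal w hK hnt).ord x := fun x hx => by
    rw [← hd x, hw x hx, WithZero.log_exp, neg_neg]
  set P := MF.PlaceOrbits.placeOfVal w hK hnt
  obtain ⟨π, hπ0, hπ⟩ := FF.exists_ord_eq_one P
  obtain ⟨e, he⟩ := hf.2 P
  refine ⟨π ^ e, zpow_ne_zero e hπ0, ?_⟩
  rw [hν f hf.1, hν _ (zpow_ne_zero e hπ0), he, P.ord_zpow, hπ]
  ring

end Fermat.Agent.HK
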