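import Fermat.Agent.HK.RootBasic
import Fermat.Agent.HK.Kummer.Torsion

/-!
# The Kummer relation between ratios of modular forms and characters
-/

set_option autoImplicit false

noncomputable section

open UpperHalfPlane CongruenceSubgroup
open scoped MatrixGroups ModularForm Manifold

namespace Fermat.Agent.HK

open Fermat.Agent.MF (MForm qL MFField)

variable {n N : ℕ}

/-- `φ` is the Kummer character of `x`: `x = u / v` and some `G` with `G ^ n = u v ^ (n-1)` has
multiplier `φ`. -/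
def IsKummer [NeZero n] (N : ℕ) (x : LaurentSeries ℂ)
    (φ : Additive (Gamma0 N) →+ ZMod n) : Prop :=
  ∃ (k : ℤ) (u v : MForm N k) (G : ℍ → ℂ), u ≠ 0 ∧ v ≠ 0 ∧ x = qL u / qL v ∧
    IsRoot n u v G ∧ HasMult k G φ

variable [NeZero n]

theorem IsKummer.ne_zero {x : LaurentSeries ℂ} {φ : Additive (Gamma0 N) →+ ZMod n}
    (h : IsKummer N x φ) : x ≠ 0 := by
  obtain ⟨k, u, v, G, hu, hv, rfl, -, -⟩ := h
  exact div_ne_zero (mt (MF.qL_mform_eq_zero_iff u).1 hu) (mt (MF.qL_mform_eq_zero_iff v).1 hv)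

theorem IsKummer.mem {x : LaurentSeries ℂ} {φ : Additive (Gamma0 N) →+ ZMod n}
    (h : IsKummer N x φ) : x ∈ MFField N := by
  obtain ⟨k, u, v, G, -, -, rfl, -, -⟩ := h
  exact MF.div_mem_MFField u v

theorem IsKummer.unique {x : LaurentSeries ℂ} {φ ψ : Additive (Gamma0 N) →+ ZMod n}
    (h : IsKummer N x φ) (h' : IsKummer N x ψ) : φ = ψ := by
  obtain ⟨k, u, v, G, hu, hv, rfl, hG, hφ⟩ := h
  obtain ⟨l, u', v', G', hu', hv', hx, hG', hψ⟩ := h'
  have hn : n ≠ 0 := NeZero.ne n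
  have hF : MDiff (G * ⇑v') := hG.mdiff.mul (ModularFormClass.holo v')
  have hF' : MDiff (G' * ⇑v) := hG'.mdiff.mul (ModularFormClass.holo v)
  have hF0 : G' * ⇑v ≠ 0 := mdiff_mul_ne_zero hG'.mdiff (ModularFormClass.holo v)
    (hG'.ne_zero hn hu' hv') (MF.mform_coe_ne_zero hv)
  obtain ⟨c, hc, heq⟩ := exists_const_of_pow_eq hn hF hF' hF0 fun τ => by
    obtain ⟨m, rfl⟩ := Nat.exists_eq_succ_of_ne_zero hn
    rw [Pi.mul_apply, Pi.mul_apply, mul_pow, mul_pow, hG.pow_eq, hG'.pow_eq, Nat.succ_sub_one,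
      pow_succ', pow_succ']
    linear_combination (v τ ^ m * v' τ ^ m) * MF.ratio_cross_eq hv hv' hx τ
  have h1 := hφ.mul (hasMult_mform (n := n) v')
  have h2 := (hψ.mul (hasMult_mform (n := n) v)).const_smul c
  rw [← heq, add_comm l k] at h2
  rw [add_zero] at h1 h2
  exact h1.unique (mdiff_mul_ne_zero hG.mdiff (ModularFormClass.holo v') (hG.ne_zero hn hu hv)
    (MF.mform_coe_ne_zero hv')) h2

theorem IsKummer.mul {x y : LaurentSeries ℂ} {φ ψ : Additive (Gamma0 N) →+ ZMod n}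
    (h : IsKummer N x φ) (h' : IsKummer N y ψ) : IsKummer N (x * y) (φ + ψ) := by
  obtain ⟨k, u, v, G, hu, hv, rfl, hG, hφ⟩ := h
  obtain ⟨l, u', v', G', hu', hv', rfl, hG', hψ⟩ := h'
  refine ⟨k + l, u.mul u', v.mul v', G * G', MF.mform_mul_ne_zero hu hu',
    MF.mform_mul_ne_zero hv hv', ?_, ⟨hG.mdiff.mul hG'.mdiff, fun τ => ?_⟩, hφ.mul hψ⟩
  · rw [MF.qL_mform_mul, MF.qL_mform_mul, div_mul_div_comm]
  · simp only [Pi.mul_apply, ModularForm.coe_mul, mul_pow, hG.pow_eq, hG'.pow_eq]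
    ring

/-- A modular form of weight `n * k` from one of weight `k`. -/
def mformPow {N : ℕ} {k : ℤ} (f : MForm N k) : (m : ℕ) → MForm N ((m : ℤ) * k)
  | 0 => ModularForm.mcast (by simp) (1 : MForm N 0)
  | m + 1 => ModularForm.mcast (by push_cast; ring) ((mformPow f m).mul f)

@[simp]
theorem mformPow_apply {k : ℤ} (f : MForm N k) (m : ℕ) (τ : ℍ) :
    mformPow f m τ = f τ ^ m := by
  induction m with
  | zero => simp [mformPow, ModularForm.one_coe_eq_one]
  | succ m ih =>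
      show ((mformPow f m).mul f) τ = _
      rw [ModularForm.coe_mul, Pi.mul_apply, ih, pow_succ]

theorem coe_mformPow {k : ℤ} (f : MForm N k) (m : ℕ) : ⇑(mformPow f m) = ⇑f ^ m := by
  funext τ
  simp

theorem qL_mformPow {k : ℤ} (f : MForm N k) (m : ℕ) : qL (mformPow f m) = qL f ^ m := by
  induction m with
  | zero =>
      rw [coe_mformPow, pow_zero, MF.qL_one, pow_zero]
  | succ m ih =>
      rw [coe_mformPow, pow_succ, ← coe_mformPow f m,
        MF.qL_mul (MF.coe_mem_qFunctions _) (MF.coe_mem_qFunctions f), ih, pow_succ]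

theorem mformPow_ne_zero {k : ℤ} {f : MForm N k} (hf : f ≠ 0) (m : ℕ) : mformPow f m ≠ 0 := by
  obtain ⟨τ, hτ⟩ := exists_apply_ne_zero (MF.mform_coe_ne_zero hf)
  intro h
  have := congrArg (fun g : MForm N ((m : ℤ) * k) => g τ) h
  simp [hτ] at this

/-- An `n`-th power of a ratio has trivial character. -/
theorem isKummer_pow {k : ℤ} {a b : MForm N k} (ha : a ≠ 0) (hb : b ≠ 0) :
    IsKummer N ((qL a / qL b) ^ n) (0 : Additive (Gamma0 N) →+ ZMod n) := by
  obtain ⟨m, hm⟩ := Nat.exists_eq_succ_of_ne_zero (NeZero.ne n)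
  refine ⟨_, mformPow a n, mformPow b n, ⇑a * ⇑(mformPow b m), mformPow_ne_zero ha n,
    mformPow_ne_zero hb n, by rw [qL_mformPow, qL_mformPow, div_pow],
    ⟨(ModularFormClass.holo a).mul (ModularFormClass.holo _), fun τ => ?_⟩, ?_⟩
  · rw [Pi.mul_apply, mformPow_apply, mformPow_apply, mformPow_apply, mul_pow, ← pow_mul,
      ← pow_mul]
    subst hm
    rw [Nat.succ_sub_one, mul_comm m m.succ]
  · have h := (hasMult_mform (n := n) a).mul (hasMult_mform (n := n) (mformPow b m))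
    rw [add_zero] at h
    rwa [show k + (m : ℤ) * k = (n : ℤ) * k by rw [hm]; push_cast; ring] at h

theorem isKummer_const {c : ℂ} (hc : c ≠ 0) :
    IsKummer N (algebraMap ℂ (LaurentSeries ℂ) c) (0 : Additive (Gamma0 N) →+ ZMod n) := by
  obtain ⟨r, hr⟩ := IsAlgClosed.exists_pow_nat_eq c (Nat.pos_of_ne_zero (NeZero.ne n))
  have hr0 : r ≠ 0 := fun h => hc (by rw [← hr, h, zero_pow (NeZero.ne n)])
  have h1 : (1 : MForm N 0) ≠ 0 := fun h => by
    simpa [ModularForm.one_coe_eq_one] using congrArg (fun f : MForm N 0 => f UpperHalfPlane.I) h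
  have h2 : r • (1 : MForm N 0) ≠ 0 := smul_ne_zero hr0 h1
  have h := isKummer_pow (n := n) h2 h1
  rwa [MF.qL_mform_smul, ModularForm.one_coe_eq_one, MF.qL_one, mul_one, div_one, ← map_pow,
    hr] at h

end Fermat.Agent.HK
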