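import Fermat.Agent.HK.Kummer.Natural
import Fermat.Prelude.Def_GaloisRep_ComplexConjugation

/-!
# The Kummer map on `JZero N [n]`
-/

set_option autoImplicit false

noncomputable section

open AlgebraicCurve ModularCurve CongruenceSubgroup

namespace Fermat.Agent.HK

variable (N : ℕ) [NeZero N] (n : ℕ) [NeZero n]

local notation "Qbar" => AlgebraicClosure ℚ

/-- The embedding `ℚ̄ → ℂ` used throughout. -/
abbrev qbarEmb : Qbar →+* ℂ := complexEmbedding.toRingHom

/-- The Kummer map on `JZero N [n]`. -/
def jKummer : Pic0.torsion Qbar (modularFunctionFieldBar N) n →+ parEllHoms N (ZMod n) :=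
  kummerMap qbarEmb N n

theorem jKummer_eq {z : Pic0.torsion Qbar (modularFunctionFieldBar N) n}
    {D : Divisor.degZero (K := Qbar) (F := modularFunctionFieldBar N)}
    (hD : Pic0.mk D = (z : JZero N)) {f : modularFunctionFieldBar N} (hf : f ≠ 0)
    (hDf : ∀ v, (n • (D : Divisor Qbar (modularFunctionFieldBar N))) v = v.ord f)
    {φ : parEllHoms N (ZMod n)}
    (hφ : IsKummer N (coeffMap qbarEmb (f : LaurentSeries Qbar))
      (φ : Additive (Gamma0 N) →+ ZMod n)) :
    jKummer N n z = φ :=
  kummerMap_eq qbarEmb N n hD hf hDf hφ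

theorem jKummer_injective : Function.Injective (jKummer N n) :=
  kummerMap_injective qbarEmb N n

theorem jKummer_nsmul (m : ℕ) [NeZero m] (z : Pic0.torsion Qbar (modularFunctionFieldBar N) (n * m))
    (w : Pic0.torsion Qbar (modularFunctionFieldBar N) n)
    (h : (w : JZero N) = m • (z : JZero N)) :
    jKummer N n w = parEllHomsMap (ZMod.castHom (dvd_mul_right n m) (ZMod n)).toAddMonoidHom
      (jKummer N (n * m) z) :=
  kummerMap_nsmul qbarEmb N n m z w h

theorem jKummer_inclusion (m : ℕ) [NeZero m] (z : Pic0.torsion Qbar (modularFunctionFieldBar N) n)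
    (w : Pic0.torsion Qbar (modularFunctionFieldBar N) (n * m))
    (h : (w : JZero N) = (z : JZero N)) :
    jKummer N (n * m) w = parEllHomsMap (zmodMulHom n m) (jKummer N n z) :=
  kummerMap_inclusion qbarEmb N n m z w h

/-- Complex conjugation acts by `χ ↦ conj (χ (J γ J))`. -/
theorem jKummer_complexConjugation (z : Pic0.torsion Qbar (modularFunctionFieldBar N) n) :
    jKummer N n (JZero.torsionGaloisRep N n complexConjugation z)
      = -parEllHomsJ N (ZMod n) (jKummer N n z) := by
  rw [JZero.torsionGaloisRep_apply]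
  show kummerMap qbarEmb N n _ = _
  rw [kummerMap_galois_smul, show jKummer N n z = kummerMap qbarEmb N n z from rfl,
    ← kummerMap_conj, show qbarEmb.comp (complexConjugation : Qbar →+* Qbar)
      = (starRingEnd ℂ).comp qbarEmb from
        RingHom.ext fun x => complexEmbedding_complexConjugation x]

instance finite_jZero_torsion : Finite (Pic0.torsion Qbar (modularFunctionFieldBar N) n) :=
  Finite.of_injective _ (jKummer_injective N n)

theorem finite_jZero_nsmul_eq_zero : {t : JZero N | n • t = 0}.Finite := by
  have h : {t : JZero N | n • t = 0}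
      = (Pic0.torsion Qbar (modularFunctionFieldBar N) n : Set (JZero N)) := by
    ext t
    rw [SetLike.mem_coe, Pic0.mem_torsion, natCast_zsmul]
    rfl
  rw [h]
  exact Set.finite_coe_iff.1 (finite_jZero_torsion N n)

theorem natCard_jZero_torsion_le :
    Nat.card (Pic0.torsion Qbar (modularFunctionFieldBar N) n) ≤ n ^ MF.ParHom.parRank N :=
  natCard_torsion_le N n qbarEmb

/-- Finiteness over `ℂ`. -/
theorem finite_torsion_complex :
    Finite (Pic0.torsion ℂ (laurentBaseChange ℂ (modularFunctionFieldFull N)) n) :=
  finite_torsion N n (RingHom.id ℂ)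

end Fermat.Agent.HK
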