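import Fermat.Agent.HK.RootChar
import Fermat.Agent.HK.Kummer.Rel
import Fermat.Agent.MF.DivideForms
import Fermat.Agent.MF.CuspSlash

/-!
# Divisible divisor gives admissible pairs, hence a Kummer character
-/

set_option autoImplicit false
set_option linter.unusedSectionVars false

noncomputable section

open UpperHalfPlane CongruenceSubgroup AlgebraicCurve
open scoped MatrixGroups ModularForm Manifold

namespace Fermat.Agent.HK

open Fermat.Agent.MF (MForm qL MFField)

variable {n N : ℕ}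

section Order

variable (E : ℤ → (ℍ → ℂ) → ℂ → ℂ) (p : ℂ)

/-- Orders at a point seen through the germ map `E`. -/
structure IsGermMap (N : ℕ) : Prop where
  analytic : ∀ (k : ℤ) (f : MForm N k), AnalyticAt ℂ (E k f) p
  ne_top : ∀ (k : ℤ) (f : MForm N k), f ≠ 0 → analyticOrderAt (E k f) p ≠ ⊤
  mul : ∀ (k l : ℤ) (f : MForm N k) (g : MForm N l), E (k + l) (⇑f * ⇑g) = E k f * E l g
  add : ∀ (k : ℤ) (f g : MForm N k), E k (⇑f + ⇑g) = E k f + E k g
  const : ∀ c : ℂ, E 0 (Function.const ℍ c) = Function.const ℂ c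

/-- The order of `f` seen through `E`. -/
def germOrd (k : ℤ) (f : ℍ → ℂ) : ℤ := (analyticOrderNatAt (E k f) p : ℤ)

variable {E p}

theorem IsGermMap.ord_mul (hE : IsGermMap E p N) {k l : ℤ} {f : MForm N k} {g : MForm N l}
    (hf : f ≠ 0) (hg : g ≠ 0) :
    germOrd E p (k + l) ⇑(f.mul g) = germOrd E p k f + germOrd E p l g := by
  simp only [germOrd, ModularForm.coe_mul, hE.mul]
  rw [analyticOrderNatAt_mul (hE.analytic k f) (hE.analytic l g) (hE.ne_top k f hf)
    (hE.ne_top l g hg)]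
  push_cast
  rfl

theorem IsGermMap.min_le_ord_add (hE : IsGermMap E p N) {k : ℤ} {f g : MForm N k}
    (hf : f ≠ 0) (hg : g ≠ 0) (hfg : f + g ≠ 0) :
    min (germOrd E p k f) (germOrd E p k g) ≤ germOrd E p k ⇑(f + g) := by
  obtain ⟨a, ha⟩ := ENat.ne_top_iff_exists.1 (hE.ne_top k f hf)
  obtain ⟨b, hb⟩ := ENat.ne_top_iff_exists.1 (hE.ne_top k g hg)
  obtain ⟨c, hc⟩ := ENat.ne_top_iff_exists.1 (hE.ne_top k (f + g) hfg)
  rw [FunLike.coe_add, hE.add] at hc
  rw [FunLike.coe_add]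
  have h := le_analyticOrderAt_add (f := E k f) (g := E k g) (z₀ := p)
  rw [← ha, ← hb, ← hc] at h
  simp only [germOrd, hE.add, analyticOrderNatAt, ← ha, ← hb, ← hc, ENat.toNat_natCast]
  have h' : min a b ≤ c := by
    rw [← ENat.natCast_le_natCast]
    rcases le_total a b with hab | hab
    · rwa [min_eq_left hab, ← min_eq_left (ENat.natCast_le_natCast.2 hab)]
    · rwa [min_eq_right hab, ← min_eq_right (ENat.natCast_le_natCast.2 hab)]
  rcases min_le_iff.1 h' with h | h <;> [exact (min_le_left _ _).trans (by exact_mod_cast h);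
    exact (min_le_right _ _).trans (by exact_mod_cast h)]

open Classical in
/-- The induced order function on ratios. -/
def ratioOrd (E : ℤ → (ℍ → ℂ) → ℂ → ℂ) (p : ℂ) (x : LaurentSeries ℂ) : ℤ :=
  if h : MF.IsMFRatio N x then
    germOrd E p h.choose h.choose_spec.choose -
      germOrd E p h.choose h.choose_spec.choose_spec.choose
  else 0

theorem IsGermMap.ord_ratio_congr (hE : IsGermMap E p N) {k l : ℤ} {f g : MForm N k}
    {f' g' : MForm N l} (hf : f ≠ 0) (hg : g ≠ 0) (hg' : g' ≠ 0)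
    (hx : qL f / qL g = qL f' / qL g') :
    germOrd E p k f - germOrd E p k g = germOrd E p l f' - germOrd E p l g' := by
  have hcross : (f : ℍ → ℂ) * g' = (f' : ℍ → ℂ) * g := funext (MF.ratio_cross_eq hg hg' hx)
  have hf' : f' ≠ 0 := by
    intro h0
    rw [h0, FunLike.coe_zero, MF.qL_zero, zero_div, div_eq_zero_iff, MF.qL_mform_eq_zero_iff,
      MF.qL_mform_eq_zero_iff] at hx
    exact hx.elim hf hg
  have h1 : germOrd E p (k + l) (⇑f * ⇑g') = germOrd E p k f + germOrd E p l g' := by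
    rw [← hE.ord_mul hf hg', ModularForm.coe_mul]
  have h2 : germOrd E p (k + l) (⇑f' * ⇑g) = germOrd E p l f' + germOrd E p k g := by
    rw [← hE.ord_mul hf' hg, ModularForm.coe_mul, add_comm k l]
  rw [hcross] at h1
  omega

theorem IsGermMap.ratioOrd_eq (hE : IsGermMap E p N) {k : ℤ} {f g : MForm N k} (hf : f ≠ 0)
    (hg : g ≠ 0) :
    ratioOrd (N := N) E p (qL f / qL g) = germOrd E p k f - germOrd E p k g := by
  classical
  have h : MF.IsMFRatio N (qL f / qL g) := ⟨k, f, g, hg, rfl⟩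
  unfold ratioOrd
  rw [dif_pos h]
  exact (hE.ord_ratio_congr hf hg h.choose_spec.choose_spec.choose_spec.1
    h.choose_spec.choose_spec.choose_spec.2).symm

theorem IsGermMap.exists_eq_mul (hE : IsGermMap E p N) {K F : Type*} [Field K] [Field F]
    [Algebra K F] (ψ : F →+* MFField N)
    (hψ : ∀ c : K, ∃ d : ℂ,
      (ψ (algebraMap K F c) : LaurentSeries ℂ) = algebraMap ℂ (LaurentSeries ℂ) d)
    {k : ℤ} {u v : MForm N k} (hu : u ≠ 0) (hv : v ≠ 0) {f : F}
    (hf : (ψ f : LaurentSeries ℂ) = qL u / qL v) (hdiv : IsOrdDivisible K n f) :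
    ∃ (l : ℤ) (a b : MForm N l), a ≠ 0 ∧ b ≠ 0 ∧
      germOrd E p k u - germOrd E p k v = n * (germOrd E p l a - germOrd E p l b) := by
  have rep : ∀ x : MFField N, x ≠ 0 → ∃ (l : ℤ) (a b : MForm N l), a ≠ 0 ∧ b ≠ 0 ∧
      (x : LaurentSeries ℂ) = qL a / qL b := by
    intro x hx
    obtain ⟨l, a, b, hb, h⟩ := x.2
    refine ⟨l, a, b, ?_, hb, h⟩
    rintro rfl
    rw [FunLike.coe_zero, MF.qL_zero, zero_div] at h
    exact hx (Subtype.ext h)
  obtain ⟨y, hy, hν⟩ := exists_eq_mul_of_isOrdDivisible (n := n)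
    (fun x : F => ratioOrd (N := N) E p (ψ x : LaurentSeries ℂ))
    (fun x y hx hy => by
      obtain ⟨l, a, b, ha, hb, hx⟩ := rep (ψ x) ((map_ne_zero ψ).2 hx)
      obtain ⟨m, c, d, hc, hd, hy⟩ := rep (ψ y) ((map_ne_zero ψ).2 hy)
      show ratioOrd E p (ψ (x * y) : LaurentSeries ℂ) = _
      rw [map_mul, MulMemClass.coe_mul]
      rw [hx, hy, div_mul_div_comm, ← MF.qL_mform_mul, ← MF.qL_mform_mul,
        hE.ratioOrd_eq (MF.mform_mul_ne_zero ha hc) (MF.mform_mul_ne_zero hb hd),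
        hE.ratioOrd_eq ha hb, hE.ratioOrd_eq hc hd, hE.ord_mul ha hc, hE.ord_mul hb hd]
      ring)
    (fun x y hx hy hxy => by
      obtain ⟨l, a, b, ha, hb, hx⟩ := rep (ψ x) ((map_ne_zero ψ).2 hx)
      obtain ⟨m, c, d, hc, hd, hy⟩ := rep (ψ y) ((map_ne_zero ψ).2 hy)
      show _ ≤ ratioOrd E p (ψ (x + y) : LaurentSeries ℂ)
      have hsum : (ψ (x + y) : LaurentSeries ℂ) =
          qL (a.mul d + b.mul c : MForm N (l + m)) / qL (b.mul d) := by
        rw [map_add, AddMemClass.coe_add, hx, hy, MF.qL_mform_add, MF.qL_mform_mul, MF.qL_mform_mul, MF.qL_mform_mul,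
          div_add_div _ _ (mt (MF.qL_mform_eq_zero_iff b).1 hb)
            (mt (MF.qL_mform_eq_zero_iff d).1 hd)]
      have h0 : a.mul d + b.mul c ≠ 0 := by
        intro h0
        rw [h0, FunLike.coe_zero, MF.qL_zero, zero_div] at hsum
        exact (map_ne_zero ψ).2 hxy (Subtype.ext hsum)
      have hmin := hE.min_le_ord_add (MF.mform_mul_ne_zero ha hd) (MF.mform_mul_ne_zero hb hc) h0
      rw [hE.ord_mul ha hd, hE.ord_mul hb hc] at hmin
      rw [hsum, hE.ratioOrd_eq h0 (MF.mform_mul_ne_zero hb hd), hE.ord_mul hb hd]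
      simp only [hx, hy, hE.ratioOrd_eq ha hb, hE.ratioOrd_eq hc hd]
      omega)
    (fun c' hc' => by
      obtain ⟨c, hcd⟩ := hψ c'
      have hc : c ≠ 0 := by
        rintro rfl
        refine (map_ne_zero ψ).2 ((map_ne_zero (algebraMap K F)).2 hc') (Subtype.ext ?_)
        rw [hcd, map_zero]; rfl
      have h1 : (1 : MForm N 0) ≠ 0 := fun h => by
        simpa [ModularForm.one_coe_eq_one] using
          congrArg (fun f : MForm N 0 => f UpperHalfPlane.I) h
      have h2 : c • (1 : MForm N 0) ≠ 0 := smul_ne_zero hc h1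
      show ratioOrd E p (ψ (algebraMap K F c') : LaurentSeries ℂ) = 0
      have hrep : algebraMap ℂ (LaurentSeries ℂ) c
          = qL (c • (1 : MForm N 0) : MForm N 0) / qL (1 : MForm N 0) := by
        rw [MF.qL_mform_smul, ModularForm.one_coe_eq_one, MF.qL_one, mul_one, div_one]
      rw [hcd, hrep, hE.ratioOrd_eq h2 h1]
      have e1 : ⇑(c • (1 : MForm N 0) : MForm N 0) = Function.const ℍ c := by
        rw [FunLike.coe_smul, ModularForm.one_coe_eq_one]
        funext τ
        simp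
      have e2 : ⇑(1 : MForm N 0) = Function.const ℍ (1 : ℂ) := ModularForm.one_coe_eq_one
      have hz : ∀ a : ℂ, a ≠ 0 → analyticOrderNatAt (Function.const ℂ a) p = 0 := fun a ha => by
        have h0 : analyticOrderAt (Function.const ℂ a) p = 0 :=
          (analyticAt_const (v := a) (x := p)).analyticOrderAt_eq_zero.2 ha
        rw [analyticOrderNatAt, h0]
        rfl
      simp only [germOrd, e1, e2, hE.const, hz c hc, hz 1 one_ne_zero, sub_self])
    hdiv
  obtain ⟨l, a, b, ha, hb, hy'⟩ := rep (ψ y) ((map_ne_zero ψ).2 hy)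
  refine ⟨l, a, b, ha, hb, ?_⟩
  simpa only [hy', hf, hE.ratioOrd_eq hu hv, hE.ratioOrd_eq ha hb] using hν

end Order

theorem isGermMap_point (τ : ℍ) : IsGermMap (fun _ f => f ∘ ofComplex) (τ : ℂ) N where
  analytic _ f := MF.analyticAt_ofComplex_comp (ModularFormClass.holo f) τ
  ne_top _ f hf :=
    MF.analyticOrderAt_ne_top (ModularFormClass.holo f) (MF.mform_coe_ne_zero hf) τ
  mul _ _ _ _ := rfl
  add _ _ _ := rfl
  const _ := rfl

theorem isGermMap_cusp [NeZero N] (A : SL(2, ℤ)) {w : ℕ} (hw : 0 < w)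
    (hA : A * ModularGroup.T ^ (w : ℤ) * A⁻¹ ∈ Gamma0 N) :
    IsGermMap (fun k f => cuspFunction w (f ∣[k] A)) 0 N := by
  have hw' : (0 : ℝ) < (w : ℝ) := by exact_mod_cast hw
  have hp : ∀ (k : ℤ) (f : MForm N k),
      Function.Periodic ((⇑f ∣[k] A) ∘ ofComplex) ((w : ℝ) : ℂ) := fun k f => by
    simpa using periodic_slash_mform f hA
  have han : ∀ (k : ℤ) (f : MForm N k), AnalyticAt ℂ (cuspFunction w (⇑f ∣[k] A)) 0 := fun k f =>
    UpperHalfPlane.analyticAt_cuspFunction_zero hw' (hp k f)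
      (mdiff_slash (ModularFormClass.holo f) k A) (ModularFormClass.bdd_at_infty_slash f A)
  refine ⟨han, fun k f hf => ?_, fun k l f g => ?_, fun k f g => ?_, fun c => ?_⟩
  · exact analyticOrderAt_cuspFunction_ne_top hw' (mdiff_slash (ModularFormClass.holo f) k A)
      (mform_slash_ne_zero hf A) (hp k f)
  · show cuspFunction (w : ℝ) ((⇑f * ⇑g) ∣[k + l] A) = _
    rw [ModularForm.mul_slash_SL2,
      UpperHalfPlane.cuspFunction_mul (han k f).continuousAt (han l g).continuousAt]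
  · show cuspFunction (w : ℝ) ((⇑f + ⇑g) ∣[k] A) = _
    rw [SlashAction.add_slash,
      UpperHalfPlane.cuspFunction_add (han k f).continuousAt (han k g).continuousAt]
  · show cuspFunction (w : ℝ) ((Function.const ℍ c) ∣[(0 : ℤ)] A) = _
    rw [ModularForm.is_invariant_const]
    funext q
    rcases eq_or_ne q 0 with rfl | hq
    · rw [UpperHalfPlane.cuspFunction, Function.Periodic.cuspFunction_zero_eq_limUnder_nhds_ne]
      refine Filter.Tendsto.limUnder_eq (tendsto_const_nhds.congr' ?_)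
      filter_upwards [self_mem_nhdsWithin] with q hq
      rw [Function.Periodic.cuspFunction_eq_of_nonzero _ _ hq]
      rfl
    · rw [UpperHalfPlane.cuspFunction, Function.Periodic.cuspFunction_eq_of_nonzero _ _ hq]
      rfl

variable [NeZero N] {k : ℤ} {u v : MForm N k}

section Field

variable {K F : Type*} [Field K] [Field F] [Algebra K F] (ψ : F →+* MFField N)
  (hψ : ∀ c : K, ∃ d : ℂ,
    (ψ (algebraMap K F c) : LaurentSeries ℂ) = algebraMap ℂ (LaurentSeries ℂ) d)

include hψ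

theorem fixedPointAdmissible_of_isOrdDivisible (hu : u ≠ 0) (hv : v ≠ 0) {f : F}
    (hf : (ψ f : LaurentSeries ℂ) = qL u / qL v) (hdiv : IsOrdDivisible K n f) :
    FixedPointAdmissible n u v := by
  intro τ
  obtain ⟨l, a, b, ha, hb, h⟩ :=
    (isGermMap_point (N := N) τ).exists_eq_mul ψ hψ hu hv hf hdiv
  refine ⟨MF.ordAtH a τ - MF.ordAtH b τ, h, fun γ hγ hfix => ?_⟩
  have h1 := mult_eq_denom_zpow_of_fixed (ModularFormClass.holo a) (MF.mform_coe_ne_zero ha) hfix
    (c := 1) (by rw [mform_slash hγ, one_smul])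
  have h2 := mult_eq_denom_zpow_of_fixed (ModularFormClass.holo b) (MF.mform_coe_ne_zero hb) hfix
    (c := 1) (by rw [mform_slash hγ, one_smul])
  rw [mul_sub, show 2 * MF.ordAtH a τ - 2 * MF.ordAtH b τ
    = -(2 * MF.ordAtH b τ + l) - -(2 * MF.ordAtH a τ + l) by ring,
    zpow_sub₀ (denom_ne_zero _ _), ← h1, ← h2, div_one]

theorem cuspAdmissible_of_isOrdDivisible (hu : u ≠ 0) (hv : v ≠ 0) {f : F}
    (hf : (ψ f : LaurentSeries ℂ) = qL u / qL v) (hdiv : IsOrdDivisible K n f) :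
    CuspAdmissible n u v := by
  intro A w hw hA
  obtain ⟨l, a, b, -, -, h⟩ :=
    (isGermMap_cusp (N := N) A hw hA).exists_eq_mul ψ hψ hu hv hf hdiv
  exact Dvd.intro _ h.symm

theorem exists_isKummer [NeZero n] {f : F} (hdiv : IsOrdDivisible K n f) :
    ∃ φ : parEllHoms N (ZMod n),
      IsKummer N (ψ f : LaurentSeries ℂ) (φ : Additive (Gamma0 N) →+ ZMod n) := by
  obtain ⟨k, u, v, hv, hx⟩ := (ψ f).2
  have hu : u ≠ 0 := by
    rintro rfl
    rw [FunLike.coe_zero, MF.qL_zero, zero_div] at hx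
    exact (map_ne_zero ψ).2 hdiv.1 (Subtype.ext hx)
  have hH := fixedPointAdmissible_of_isOrdDivisible ψ hψ hu hv hx hdiv
  obtain ⟨G, hG⟩ := exists_isRoot (NeZero.ne n) hu hv fun τ =>
    (hH τ).imp fun d hd => hd.1
  obtain ⟨φ, hφ⟩ := exists_hasMult hG.mdiff (hG.ne_zero (NeZero.ne n) hu hv)
    (fun γ τ => hG.slash_pow_eq (NeZero.ne n) γ.2 τ)
  exact ⟨⟨φ, hG.mult_mem_parEllHoms hu hv hH
      (cuspAdmissible_of_isOrdDivisible ψ hψ hu hv hx hdiv) hφ⟩,
    k, u, v, G, hu, hv, hx, hG, hφ⟩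

/-- If no order is nonzero, the image is a constant. -/
theorem exists_const_of_ord_eq_zero {f : F} (hf0 : f ≠ 0) (hord : ∀ P : Place K F, P.ord f = 0) :
    ∃ c : ℂ, (ψ f : LaurentSeries ℂ) = algebraMap ℂ (LaurentSeries ℂ) c := by
  obtain ⟨k, u, v, hv, hx⟩ := (ψ f).2
  have hu : u ≠ 0 := by
    rintro rfl
    rw [FunLike.coe_zero, MF.qL_zero, zero_div] at hx
    exact (map_ne_zero ψ).2 hf0 (Subtype.ext hx)
  have hdiv : IsOrdDivisible K 0 f := ⟨hf0, fun P => by simp [hord P]⟩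
  have hpt : ∀ τ : ℍ, MF.ordAtH u τ = MF.ordAtH v τ := by
    intro τ
    obtain ⟨l, a, b, -, -, h⟩ :=
      (isGermMap_point (N := N) τ).exists_eq_mul ψ hψ hu hv hx hdiv
    simp only [germOrd, Nat.cast_zero, zero_mul] at h
    simp only [MF.ordAtH]
    omega
  obtain ⟨g, hg, hgv⟩ := MF.exists_mdifferentiable_mul_eq (ModularFormClass.holo u)
    (ModularFormClass.holo v) (MF.mform_coe_ne_zero hv) (fun τ => le_of_eq (by
    rw [(MF.analyticAt_ofComplex_comp (ModularFormClass.holo u) τ).meromorphicOrderAt_eq,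
      (MF.analyticAt_ofComplex_comp (ModularFormClass.holo v) τ).meromorphicOrderAt_eq,
      ← Nat.cast_analyticOrderNatAt
        (MF.analyticOrderAt_ne_top (ModularFormClass.holo u) (MF.mform_coe_ne_zero hu) τ),
      ← Nat.cast_analyticOrderNatAt
        (MF.analyticOrderAt_ne_top (ModularFormClass.holo v) (MF.mform_coe_ne_zero hv) τ)]
    simpa [MF.ordAtH] using (hpt τ).symm))
  have hslash : ∀ A : SL(2, ℤ), g ∣[(0 : ℤ)] A * ⇑v ∣[k] A = ⇑u ∣[k] A := fun A => by
    rw [← ModularForm.mul_slash_SL2, zero_add, hgv]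
  have hinv : ∀ γ ∈ Gamma0 N, g ∣[(0 : ℤ)] γ = g := fun γ hγ => by
    have h1 := hslash γ
    rw [mform_slash hγ, mform_slash hγ] at h1
    by_contra hne
    refine mdiff_mul_ne_zero ((mdiff_slash hg 0 γ).sub hg) (ModularFormClass.holo v)
      (sub_ne_zero.2 hne) (MF.mform_coe_ne_zero hv) ?_
    rw [sub_mul, h1, hgv, sub_self]
  have hbdd : ∀ A : SL(2, ℤ), IsBoundedAtImInfty (g ∣[(0 : ℤ)] A) := by
    intro A
    have hA := MF.conj_T_pow_mem_Gamma0 N A
    have hw : (0 : ℝ) < (N : ℝ) := by exact_mod_cast NeZero.pos N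
    obtain ⟨l, a, b, -, -, h⟩ :=
      (isGermMap_cusp (N := N) A (NeZero.pos N) hA).exists_eq_mul ψ hψ hu hv hx hdiv
    simp only [germOrd, Nat.cast_zero, zero_mul] at h
    have hp : ∀ F : MForm N k, Function.Periodic ((⇑F ∣[k] A) ∘ ofComplex) ((N : ℝ) : ℂ) :=
      fun F => by simpa using periodic_slash_mform F hA
    have han : ∀ F : MForm N k, AnalyticAt ℂ (cuspFunction N (⇑F ∣[k] A)) 0 := fun F =>
      UpperHalfPlane.analyticAt_cuspFunction_zero hw (hp F)
        (mdiff_slash (ModularFormClass.holo F) k A) (ModularFormClass.bdd_at_infty_slash F A)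
    have hta := analyticOrderAt_cuspFunction_ne_top hw
      (mdiff_slash (ModularFormClass.holo u) k A) (mform_slash_ne_zero hu A) (hp u)
    have htb := analyticOrderAt_cuspFunction_ne_top hw
      (mdiff_slash (ModularFormClass.holo v) k A) (mform_slash_ne_zero hv A) (hp v)
    obtain ⟨U, hU, hU0, hU'⟩ := (han u).analyticOrderAt_ne_top.1 hta
    obtain ⟨V, hV, hV0, hV'⟩ := (han v).analyticOrderAt_ne_top.1 htb
    have heq : analyticOrderNatAt (cuspFunction N (⇑u ∣[k] A)) 0
        = analyticOrderNatAt (cuspFunction N (⇑v ∣[k] A)) 0 := by omega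
    rw [heq] at hU'
    have hev : g ∣[(0 : ℤ)] A =ᶠ[atImInfty]
        fun τ => U (Function.Periodic.qParam N τ) / V (Function.Periodic.qParam N τ) := by
      filter_upwards [(qParam_tendsto_atImInfty hw).eventually hU',
        (qParam_tendsto_atImInfty hw).eventually hV',
        (qParam_tendsto_atImInfty hw).eventually (hV.continuousAt.eventually_ne hV0)]
        with τ h1 h2 h3
      rw [eq_cuspFunction τ hw.ne' (hp u), smul_eq_mul, sub_zero] at h1
      rw [eq_cuspFunction τ hw.ne' (hp v), smul_eq_mul, sub_zero] at h2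
      have h4 := congrFun (hslash A) τ
      rw [Pi.mul_apply, h1, h2] at h4
      rw [eq_div_iff h3]
      refine mul_left_cancel₀ (pow_ne_zero (analyticOrderNatAt (cuspFunction N (⇑v ∣[k] A)) 0)
        (Function.Periodic.qParam_ne_zero (h := (N : ℝ)) (τ : ℂ))) ?_
      linear_combination h4
    have ht : Filter.Tendsto (g ∣[(0 : ℤ)] A) atImInfty (nhds (U 0 / V 0)) :=
      Filter.Tendsto.congr' hev.symm
        ((hU.continuousAt.tendsto.comp (qParam_tendsto_atImInfty hw)).div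
          (hV.continuousAt.tendsto.comp (qParam_tendsto_atImInfty hw)) hV0)
    exact ht.isBigO_one ℝ
  let G : MForm N 0 :=
    { toFun := g
      slash_action_eq' := by
        rintro _ ⟨γ, hγ, rfl⟩
        exact hinv γ hγ
      holo' := hg
      bdd_at_cusps' := by
        intro c hc
        rw [Subgroup.IsArithmetic.isCusp_iff_isCusp_SL2Z] at hc
        rw [OnePoint.isBoundedAt_iff_forall_SL2Z hc]
        exact fun A _ => hbdd A }
  obtain ⟨c, hc⟩ := ModularForm.eq_const_of_weight_zero G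
  refine ⟨c, hx.trans ?_⟩
  have hu' : (⇑u : ℍ → ℂ) = c • ⇑v := by
    rw [← hgv, show g = ⇑G from rfl, hc]
    funext τ
    simp
  rw [hu', MF.qL_smul c (MF.coe_mem_qFunctions v),
    mul_div_assoc, div_self (mt (MF.qL_mform_eq_zero_iff v).1 hv), mul_one]

end Field

variable [NeZero n]

/-- A root with trivial multiplier is a modular form. -/
theorem IsRoot.exists_mform {G : ℍ → ℂ} (hG : IsRoot n u v G)
    (hφ : HasMult k G (0 : Additive (Gamma0 N) →+ ZMod n)) : ∃ g : MForm N k, ⇑g = G := by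
  refine ⟨{ toFun := G, slash_action_eq' := ?_, holo' := hG.mdiff, bdd_at_cusps' := ?_ }, rfl⟩
  · rintro _ ⟨γ, hγ, rfl⟩
    exact hφ.slash_eq_self hγ
  · intro c hc
    rw [Subgroup.IsArithmetic.isCusp_iff_isCusp_SL2Z] at hc
    rw [OnePoint.isBoundedAt_iff_forall_SL2Z hc]
    intro A _
    show IsBoundedAtImInfty (G ∣[k] A)
    rw [isBoundedAtImInfty_iff]
    obtain ⟨M₁, A₁, h₁⟩ := isBoundedAtImInfty_iff.1 (ModularFormClass.bdd_at_infty_slash u A)
    obtain ⟨M₂, A₂, h₂⟩ := isBoundedAtImInfty_iff.1 (ModularFormClass.bdd_at_infty_slash v A)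
    refine ⟨max 1 (|M₁| * |M₂| ^ (n - 1)), max A₁ A₂, fun τ hτ => ?_⟩
    have hb : ‖(G ∣[k] A) τ‖ ^ n ≤ |M₁| * |M₂| ^ (n - 1) := by
      obtain ⟨m, hm⟩ := Nat.exists_eq_succ_of_ne_zero (NeZero.ne n)
      have : (G ∣[k] A) τ ^ n = (⇑u ∣[k] A) τ * (⇑v ∣[k] A) τ ^ (n - 1) := by
        subst hm
        rw [ModularForm.SL_slash_apply, ModularForm.SL_slash_apply, ModularForm.SL_slash_apply,
          mul_pow, hG.pow_eq, Nat.succ_sub_one, pow_succ']
        ring
      rw [← norm_pow, this, norm_mul, norm_pow]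
      gcongr
      · exact (h₁ τ ((le_max_left _ _).trans hτ)).trans (le_abs_self _)
      · exact (h₂ τ ((le_max_right _ _).trans hτ)).trans (le_abs_self _)
    by_contra hlt
    push Not at hlt
    have h1 : 1 ≤ ‖(G ∣[k] A) τ‖ := ((le_max_left _ _).trans_lt hlt).le
    exact absurd ((le_self_pow₀ h1 (NeZero.ne n)).trans hb)
      (not_le.2 ((le_max_right _ _).trans_lt hlt))

/-- Injectivity: trivial Kummer character means an `n`-th power. -/
theorem exists_pow_of_isKummer_zero {x : MFField N}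
    (h : IsKummer N (x : LaurentSeries ℂ) (0 : Additive (Gamma0 N) →+ ZMod n)) :
    ∃ t : MFField N, x = t ^ n := by
  obtain ⟨k, u, v, G, hu, hv, hx, hG, hφ⟩ := h
  obtain ⟨g, hg⟩ := hG.exists_mform hφ
  refine ⟨⟨qL g / qL v, MF.div_mem_MFField g v⟩, Subtype.ext ?_⟩
  rw [SubmonoidClass.coe_pow, hx]
  show _ = (qL g / qL v) ^ n
  rw [← qL_mformPow u 1 |>.trans (pow_one _), div_pow]
  obtain ⟨m, hm⟩ := Nat.exists_eq_succ_of_ne_zero (NeZero.ne n)
  have hvne := mt (MF.qL_mform_eq_zero_iff v).1 hv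
  have key : qL g ^ n = qL u * qL v ^ (n - 1) := by
    rw [← qL_mformPow, ← qL_mformPow, ← MF.qL_mul (MF.coe_mem_qFunctions _) (MF.coe_mem_qFunctions _)]
    congr 1
    funext τ
    simp [mformPow_apply, hg, hG.pow_eq]
  rw [show (⇑(mformPow u 1) : ℍ → ℂ) = ⇑u from funext fun τ => (mformPow_apply u 1 τ).trans (pow_one _), key]
  subst hm
  rw [Nat.succ_sub_one, pow_succ']
  field_simp

end Fermat.Agent.HK
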