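import Fermat.Agent.HK.Kummer.Rel
import Fermat.Agent.MF.ConjForm
import Fermat.Prelude.Def_ModularCurve_LaurentCoeff

/-!
# Complex conjugation of Kummer characters
-/

set_option autoImplicit false

set_option linter.unusedSectionVars false

noncomputable section

open UpperHalfPlane CongruenceSubgroup
open scoped MatrixGroups ModularForm Manifold ComplexConjugate

namespace Fermat.Agent.HK

open Fermat.Agent.MF (MForm qL)

variable {n N : ℕ} [NeZero N] {k : ℤ}

/-- `f ↦ conj (f (-conj τ))` on modular forms for `Γ₀(N)`. -/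
def conjMForm (f : MForm N k) : MForm N k where
  toFun := ⇑f ∣[k] J
  slash_action_eq' := by
    rintro _ ⟨γ, hγ, rfl⟩
    show (⇑f ∣[k] J) ∣[k] γ = ⇑f ∣[k] J
    rw [MF.slash_J_slash, mform_slash (ModularCurve.Period.jConjSL_mem_Gamma0 hγ)]
  holo' := (ModularFormClass.holo f).slash k J
  bdd_at_cusps' := by
    intro c hc
    rw [Subgroup.IsArithmetic.isCusp_iff_isCusp_SL2Z] at hc
    rw [OnePoint.isBoundedAt_iff_forall_SL2Z hc]
    intro γ _
    rw [MF.slash_J_slash]
    exact IsBoundedAtImInfty.slash k (g := J) (by simp)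
      (ModularFormClass.bdd_at_infty_slash f _)

theorem conjMForm_apply (f : MForm N k) (τ : ℍ) : conjMForm f τ = conj (f (J • τ)) :=
  MF.slash_J_apply _ τ

theorem conjMForm_ne_zero {f : MForm N k} (hf : f ≠ 0) : conjMForm f ≠ 0 := by
  intro h
  obtain ⟨τ, hτ⟩ := exists_apply_ne_zero (MF.mform_coe_ne_zero hf)
  have h' := congrArg (fun g : MForm N k => g (J • τ)) h
  simp [conjMForm_apply, smul_smul, ← sq, J_sq, hτ] at h'

theorem qExpansion_coeff_conjMForm (f : MForm N k) (m : ℕ) :
    (qExpansion 1 (conjMForm f)).coeff m = conj ((qExpansion 1 f).coeff m) := by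
  have hp := CongruenceSubgroup.one_mem_strictPeriods_Gamma0 N
  refine (ModularFormClass.qExpansion_coeff_unique
    (c := fun m ↦ conj ((qExpansion 1 f).coeff m)) one_pos hp (f := conjMForm f) ?_ m).symm
  intro τ
  have h := ModularForm.hasSum_qExpansion f one_pos hp (J • τ)
  rw [conjMForm_apply]
  have hq : conj (Function.Periodic.qParam 1 (↑(J • τ) : ℂ))
      = Function.Periodic.qParam 1 (τ : ℂ) := by
    rw [Function.Periodic.qParam, Function.Periodic.qParam, ← Complex.exp_conj, coe_J_smul]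
    congr 1
    simp [map_mul, map_ofNat]
  simpa only [map_mul, map_pow, hq, smul_eq_mul, Function.comp_def, RingHom.toAddMonoidHom_eq_coe,
    AddMonoidHom.coe_coe] using h.map (starRingEnd ℂ).toAddMonoidHom Complex.continuous_conj

theorem qL_conjMForm (f : MForm N k) :
    qL (conjMForm f) = ModularCurve.coeffMap (starRingEnd ℂ) (qL f) := by
  ext i
  rw [ModularCurve.coeffMap_coeff]
  rcases lt_or_ge i 0 with hi | hi
  · rw [MF.qL_coeff_of_neg _ hi, MF.qL_coeff_of_neg _ hi, map_zero]
  · lift i to ℕ using hi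
    rw [MF.qL_coeff_natCast, MF.qL_coeff_natCast, qExpansion_coeff_conjMForm]

theorem stdAddChar_conj [NeZero n] (a : ZMod n) :
    conj (ZMod.stdAddChar a : ℂ) = ZMod.stdAddChar (-a) := by
  rw [AddChar.map_neg_eq_inv, ← Complex.inv_eq_conj]
  rw [ZMod.stdAddChar_apply]
  exact Circle.norm_coe _

/-- `χ_{x̄}(γ) = conj χ_x(J γ J)`. -/
theorem IsKummer.conj_coeff [NeZero n] {x : LaurentSeries ℂ}
    {φ : Additive (Gamma0 N) →+ ZMod n} (h : IsKummer N x φ) :
    IsKummer N (ModularCurve.coeffMap (starRingEnd ℂ) x)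
      (-(φ.comp (MonoidHom.toAdditive (ModularCurve.Period.jConjGamma0 N)))) := by
  obtain ⟨k, u, v, G, hu, hv, rfl, hG, hφ⟩ := h
  refine ⟨k, conjMForm u, conjMForm v, G ∣[k] J, conjMForm_ne_zero hu, conjMForm_ne_zero hv, ?_,
    ⟨hG.mdiff.slash k J, fun τ => ?_⟩, fun γ => ?_⟩
  · rw [map_div₀, qL_conjMForm, qL_conjMForm]
  · rw [MF.slash_J_apply, conjMForm_apply, conjMForm_apply, ← map_pow, hG.pow_eq, map_mul, map_pow]
  · rw [MF.slash_J_slash]
    have h := hφ (ModularCurve.Period.jConjGamma0 N γ)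
    rw [ModularCurve.Period.jConjGamma0_coe] at h
    rw [h, ModularForm.smul_slash, sigma_J]
    congr 1
    show conj _ = _
    rw [stdAddChar_conj]
    rfl

end Fermat.Agent.HK
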