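import Fermat.Agent.HK.RootChar
import Fermat.Agent.HK.Multiplier.Eisenstein
import Fermat.Agent.MF.PlaceOrbits.Stabilizer

/-!
# Local orders of functions invariant under the non-hyperbolic elements of `Γ₀(N)`

At the point `g⁻¹ τ` and at the cusp `g⁻¹ ∞` such a function of weight `k` has the same
congruences for its orders as a modular form of weight `k`.
-/

set_option autoImplicit false

noncomputable section

open UpperHalfPlane CongruenceSubgroup Function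
open scoped MatrixGroups ModularForm Manifold

namespace Fermat.Agent.HK

open Fermat.Agent.MF (MForm)

/-- Holomorphic of weight `k`, bounded at all cusps, invariant under the non-hyperbolic elements
of `Γ₀(N)`. -/
structure IsEllParInv (N : ℕ) (k : ℤ) (F : ℍ → ℂ) : Prop where
  mdiff : MDiff F
  ne_zero : F ≠ 0
  bdd : ∀ A : SL(2, ℤ), IsBoundedAtImInfty (F ∣[k] A)
  inv : ∀ γ ∈ Gamma0 N, IsNonHyperbolic γ → F ∣[k] γ = F

theorem isEllParInv_mform {N : ℕ} [NeZero N] {k : ℤ} {f : MForm N k} (hf : f ≠ 0) :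
    IsEllParInv N k ⇑f :=
  ⟨ModularFormClass.holo f, MF.mform_coe_ne_zero hf,
    fun A => ModularFormClass.bdd_at_infty_slash f A,
    fun _ hγ _ => mform_slash hγ⟩

/-- An element with a fixed point in `ℍ` is non-hyperbolic. -/
theorem isNonHyperbolic_of_fixed {γ : SL(2, ℤ)} {τ : ℍ} (h : γ • τ = τ) : IsNonHyperbolic γ :=
  isNonHyperbolic_iff.2 (Or.inr
    (MF.Cosets.isOfFinOrder_iff.2 (MF.Cosets.exists_conj_of_smul_eq_self h)))

theorem ptOrd_pow {F : ℍ → ℂ} (hF : MDiff F) (h0 : F ≠ 0) (m : ℕ) (τ : ℍ) :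
    MF.PlaceOrbits.ptOrd (F ^ m) τ = m * MF.PlaceOrbits.ptOrd F τ := by
  induction m with
  | zero => simpa using! MF.PlaceOrbits.ptOrd_const one_ne_zero τ
  | succ m ih =>
    obtain ⟨z, hz⟩ := exists_apply_ne_zero h0
    rw [pow_succ, MF.PlaceOrbits.ptOrd_mul (hF.pow m)
      (Function.ne_iff.2 ⟨z, pow_ne_zero m hz⟩) hF h0, ih]
    push_cast
    ring

variable {N : ℕ} [NeZero N] {k : ℤ} {F G : ℍ → ℂ}

namespace IsEllParInv

omit [NeZero N] in
theorem slash_ne_zero (hF : IsEllParInv N k F) (A : SL(2, ℤ)) : F ∣[k] A ≠ 0 := by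
  rw [Ne, SlashAction.slash_eq_zero_iff]
  exact hF.ne_zero

omit [NeZero N] in
theorem periodic_slash (hF : IsEllParInv N k F) (A : SL(2, ℤ)) :
    Periodic ((F ∣[k] A) ∘ ofComplex) ((N : ℝ) : ℂ) := by
  refine periodic_ofComplex_of_vadd fun τ => ?_
  have h' : F ∣[k] (A * ModularGroup.T ^ (N : ℤ) * A⁻¹) = (1 : ℂ) • F := by
    rw [one_smul]
    exact hF.inv _ (Multiplier.conj_T_zpow_mem_Gamma0 A)
      (Multiplier.isNonHyperbolic_conj_T_zpow A N)
  have h := slash_apply_vadd h' τ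
  simpa using h

theorem analyticAt_cuspFunction (hF : IsEllParInv N k F) (A : SL(2, ℤ)) :
    AnalyticAt ℂ (cuspFunction (N : ℝ) (F ∣[k] A)) 0 :=
  UpperHalfPlane.analyticAt_cuspFunction_zero (by exact_mod_cast NeZero.pos N)
    (hF.periodic_slash A) (mdiff_slash hF.mdiff k A) (hF.bdd A)

theorem qExpansion_ne_zero (hF : IsEllParInv N k F) (A : SL(2, ℤ)) :
    qExpansion (N : ℝ) (F ∣[k] A) ≠ 0 := by
  rw [ne_eq, qExpansion_eq_zero_iff (by exact_mod_cast NeZero.pos N) (hF.periodic_slash A)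
    (mdiff_slash hF.mdiff k A) (hF.bdd A)]
  exact hF.slash_ne_zero A

/-- The expansion of a power at `A ∞`. -/
theorem qExpansion_pow (hF : IsEllParInv N k F) (m : ℕ) (A : SL(2, ℤ)) :
    qExpansion (N : ℝ) ((F ^ m) ∣[(m : ℤ) * k] A) = qExpansion (N : ℝ) (F ∣[k] A) ^ m := by
  have e : (F ^ m) ∣[(m : ℤ) * k] A = (F ∣[k] A) ^ m := pow_slash m k F A
  rw [e]
  clear e
  have hN : (0 : ℝ) < (N : ℝ) := by exact_mod_cast NeZero.pos N
  induction m with
  | zero => rw [pow_zero, pow_zero, qExpansion_one]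
  | succ m ih =>
    rw [pow_succ, pow_succ, qExpansion_mul ?_ (hF.analyticAt_cuspFunction A), ih]
    refine UpperHalfPlane.analyticAt_cuspFunction_zero hN ?_ ((mdiff_slash hF.mdiff k A).pow m) ?_
    · intro z
      simpa using congrArg (· ^ m) (hF.periodic_slash A z)
    · have hb : ∀ j : ℕ, IsBoundedAtImInfty ((F ∣[k] A) ^ j) := by
        intro j
        induction j with
        | zero => simpa using! Filter.const_boundedAtFilter _ (1 : ℂ)
        | succ j ihj => rw [pow_succ]; exact ihj.mul (hF.bdd A)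
      exact hb m

theorem order_qExpansion_pow (hF : IsEllParInv N k F) (m : ℕ) (A : SL(2, ℤ)) :
    (qExpansion (N : ℝ) ((F ^ m) ∣[(m : ℤ) * k] A)).order.toNat
      = m * (qExpansion (N : ℝ) (F ∣[k] A)).order.toNat := by
  rw [hF.qExpansion_pow, PowerSeries.order_pow, nsmul_eq_mul, ENat.toNat_mul, ENat.toNat_natCast]

theorem dvd_mul_order_qExpansion (hF : IsEllParInv N k F) {g : SL(2, ℤ)} {s : ℕ}
    (hs : g⁻¹ * ModularGroup.T ^ (s : ℤ) * g ∈ Gamma0 N) :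
    (N : ℤ) ∣ (s : ℤ) * (qExpansion (N : ℝ) (F ∣[k] g⁻¹)).order.toNat := by
  have han : ∀ m : ℤ, AnalyticAt ℂ (cuspFunction (N : ℝ)
      ((F ∣[k] g⁻¹) ∣[k] (ModularGroup.T ^ m))) 0 := fun m => by
    rw [← SlashAction.slash_mul]; exact hF.analyticAt_cuspFunction _
  set r := (qExpansion (N : ℝ) (F ∣[k] g⁻¹)).order.toNat with hr
  have hnh : IsNonHyperbolic (g⁻¹ * ModularGroup.T ^ (s : ℤ) * g) := by
    simpa using Multiplier.isNonHyperbolic_conj_T_zpow g⁻¹ (s : ℤ)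
  have hinv : (F ∣[k] g⁻¹) ∣[k] (ModularGroup.T ^ (s : ℤ)) = F ∣[k] g⁻¹ := by
    rw [← SlashAction.slash_mul]
    conv_lhs => rw [show g⁻¹ * ModularGroup.T ^ (s : ℤ) =
      (g⁻¹ * ModularGroup.T ^ (s : ℤ) * g) * g⁻¹ by group]
    rw [SlashAction.slash_mul, hF.inv _ hs hnh]
  have hc := PowerSeries.coeff_order (hF.qExpansion_ne_zero g⁻¹)
  rw [← hr] at hc
  have h := MF.PlaceOrbits.qExpansion_slash_T_zpow _ (hF.periodic_slash g⁻¹)
    (mdiff_slash hF.mdiff k _) (hF.bdd g⁻¹) han (s : ℤ) r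
  rw [hinv] at h
  have h' : Complex.exp (2 * Real.pi * Complex.I * (s : ℤ) / N) ^ r = 1 :=
    mul_right_cancel₀ hc (by rw [one_mul]; exact h.symm)
  rw [← Complex.exp_nat_mul, Complex.exp_eq_one_iff] at h'
  obtain ⟨d, hd⟩ := h'
  refine ⟨d, ?_⟩
  have hN : (N : ℂ) ≠ 0 := by exact_mod_cast NeZero.ne N
  have hpi : (2 * (Real.pi : ℂ) * Complex.I) ≠ 0 := by simp [Real.pi_ne_zero]
  field_simp at hd
  have : ((s : ℤ) : ℂ) * (r : ℤ) = (N : ℤ) * d := by
    apply mul_left_cancel₀ hpi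
    push_cast at hd ⊢
    linear_combination 2 * (Real.pi : ℂ) * Complex.I * hd
  exact_mod_cast this

omit [NeZero N] in
/-- At a fixed point the orders of two such functions of the same weight differ by a multiple
of `m / s`. -/
theorem dvd_mul_ptOrd_sub (hF : IsEllParInv N k F) (hG : IsEllParInv N k G) {τ : ℍ}
    {h : SL(2, ℤ)} (hg : MF.PlaceOrbits.IsStabGen τ h) {g : SL(2, ℤ)} {s : ℕ}
    (hs : g⁻¹ * h ^ s * g ∈ Gamma0 N) :
    (MF.kleinJDegree τ : ℤ) ∣ (s : ℤ) *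
      (MF.PlaceOrbits.ptOrd F (g⁻¹ • τ) - MF.PlaceOrbits.ptOrd G (g⁻¹ • τ)) := by
  have hsfix : h ^ s • τ = τ := MF.PlaceOrbits.denom_zpow_val_eq_one.smul_pow_fixed hg.1 s
  have hfix : (g⁻¹ * h ^ s * g) • (g⁻¹ • τ) = g⁻¹ • τ := by
    rw [SemigroupAction.mul_smul, smul_inv_smul, SemigroupAction.mul_smul, hsfix]
  have hden : denom ((g⁻¹ * h ^ s * g : SL(2, ℤ)) : GL (Fin 2) ℝ) ((g⁻¹ • τ : ℍ) : ℂ) =
      denom (h : GL (Fin 2) ℝ) (τ : ℂ) ^ s := by
    rw [MF.PlaceOrbits.denom_conj_fixed hsfix, MF.PlaceOrbits.denom_pow_fixed hg.1]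
  have hnh := isNonHyperbolic_of_fixed hfix
  have k1 := MF.PlaceOrbits.denom_zpow_eq_one_of_fixed hF.mdiff hF.ne_zero (hF.inv _ hs hnh) hfix
  have k2 := MF.PlaceOrbits.denom_zpow_eq_one_of_fixed hG.mdiff hG.ne_zero (hG.inv _ hs hnh) hfix
  rw [hden, ← zpow_natCast (denom _ _) s, ← zpow_mul] at k1 k2
  refine (hg.2.zpow_eq_one_iff_dvd _).1 ?_
  have hd0 : denom (h : GL (Fin 2) ℝ) (τ : ℂ) ≠ 0 := denom_ne_zero _ τ
  rw [← zpow_natCast _ 2, ← zpow_mul]
  calc _ = (denom (h : GL (Fin 2) ℝ) (τ : ℂ) ^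
          ((s : ℤ) * (k + 2 * MF.PlaceOrbits.ptOrd F (g⁻¹ • τ)))) /
        denom (h : GL (Fin 2) ℝ) (τ : ℂ) ^
          ((s : ℤ) * (k + 2 * MF.PlaceOrbits.ptOrd G (g⁻¹ • τ))) := by
          rw [← zpow_sub₀ hd0]; congr 1; push_cast; ring
    _ = 1 := by rw [k1, k2, div_one]

end IsEllParInv

end Fermat.Agent.HK
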