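import Fermat.Agent.HK.Kummer.Map
import Fermat.Agent.HK.Kummer.Conj
import Fermat.Prelude.Def_ModularCurve_ArithmeticGalois

/-!
# Naturality of the Kummer map in `n` and under automorphisms of the coefficients
-/

set_option autoImplicit false
set_option linter.unusedSectionVars false

noncomputable section

open UpperHalfPlane AlgebraicCurve ModularCurve CongruenceSubgroup
open scoped MatrixGroups ModularForm Manifold

namespace Fermat.Agent.HK

open Fermat.Agent.MF (MForm MFField qL)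

/-- `ℤ/n → ℤ/(n m)`, multiplication by `m`. -/
def zmodMulHom (n m : ℕ) : ZMod n →+ ZMod (n * m) :=
  ZMod.lift n ⟨(AddMonoidHom.mulRight (m : ZMod (n * m))).comp (Int.castAddHom _), by
    simp only [AddMonoidHom.comp_apply, AddMonoidHom.mulRight_apply, Int.coe_castAddHom]
    rw [Int.cast_natCast, ← Nat.cast_mul, ZMod.natCast_self]⟩

@[simp]
theorem zmodMulHom_intCast (n m : ℕ) (j : ℤ) :
    zmodMulHom n m (j : ZMod n) = (j : ZMod (n * m)) * (m : ZMod (n * m)) := by
  rw [zmodMulHom, ZMod.lift_coe]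
  rfl

theorem stdAddChar_zmodMulHom (n m : ℕ) [NeZero n] [NeZero m] (a : ZMod n) :
    ZMod.stdAddChar (zmodMulHom n m a) = ZMod.stdAddChar a := by
  obtain ⟨j, rfl⟩ := ZMod.intCast_surjective a
  rw [zmodMulHom_intCast, ← Int.cast_natCast (R := ZMod (n * m)) m, ← Int.cast_mul,
    ZMod.stdAddChar_coe, ZMod.stdAddChar_coe]
  congr 1
  have hm : (m : ℂ) ≠ 0 := Nat.cast_ne_zero.2 (NeZero.ne m)
  push_cast
  field_simp

theorem stdAddChar_castHom (n m : ℕ) [NeZero n] [NeZero m] (a : ZMod (n * m)) :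
    (ZMod.stdAddChar (ZMod.castHom (dvd_mul_right n m) (ZMod n) a) : ℂ)
      = ZMod.stdAddChar a ^ m := by
  obtain ⟨j, rfl⟩ := ZMod.intCast_surjective a
  rw [map_intCast, ZMod.stdAddChar_coe, ZMod.stdAddChar_coe, ← Complex.exp_nat_mul]
  congr 1
  have hm : (m : ℂ) ≠ 0 := Nat.cast_ne_zero.2 (NeZero.ne m)
  push_cast
  field_simp

section Rel

variable {N : ℕ} [NeZero N] {n m : ℕ} [NeZero n] [NeZero m] {k : ℤ}

theorem pow_slash_eq {G : ℍ → ℂ} (γ : SL(2, ℤ)) {c : ℂ} (h : G ∣[k] γ = c • G) (m : ℕ) :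
    (fun τ => G τ ^ m) ∣[(m : ℤ) * k] γ = c ^ m • fun τ => G τ ^ m := by
  rw [pow_slash, h]
  funext τ
  simp [mul_pow]

/-- From `n m` to `n`. -/
theorem IsKummer.castHom {x : LaurentSeries ℂ} {φ : Additive (Gamma0 N) →+ ZMod (n * m)}
    (h : IsKummer N x φ) :
    IsKummer N x ((ZMod.castHom (dvd_mul_right n m) (ZMod n)).toAddMonoidHom.comp φ) := by
  obtain ⟨k, u, v, G, hu, hv, rfl, hG, hφ⟩ := h
  obtain ⟨a, ha⟩ := Nat.exists_eq_succ_of_ne_zero (NeZero.ne n)
  obtain ⟨b, hb⟩ := Nat.exists_eq_succ_of_ne_zero (NeZero.ne m)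
  have hk : k + (b : ℤ) * k = (m : ℤ) * k := by rw [hb]; push_cast; ring
  have hv0 := mt (MF.qL_mform_eq_zero_iff v).1 hv
  refine ⟨(m : ℤ) * k, ModularForm.mcast hk (u.mul (mformPow v b)), mformPow v m,
    fun τ => G τ ^ m, ?_, mformPow_ne_zero hv m, ?_, ⟨?_, fun τ => ?_⟩, fun γ => ?_⟩
  · intro h0
    refine MF.mform_mul_ne_zero hu (mformPow_ne_zero hv b) (ModularForm.ext fun τ => ?_)
    simpa using congrArg (fun f : MForm N ((m : ℤ) * k) => f τ) h0
  · show _ = qL (u.mul (mformPow v b) : MForm N _) / qL (mformPow v m)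
    rw [MF.qL_mform_mul, qL_mformPow, qL_mformPow, hb, pow_succ,
      mul_comm (qL (v : ℍ → ℂ) ^ b), mul_div_mul_right _ _ (pow_ne_zero b hv0)]
  · rw [UpperHalfPlane.mdifferentiable_iff]
    exact (UpperHalfPlane.mdifferentiable_iff.1 hG.mdiff).pow m
  · show (G τ ^ m) ^ n = (u.mul (mformPow v b)) τ * _
    rw [ModularForm.coe_mul, Pi.mul_apply, mformPow_apply, mformPow_apply, ← pow_mul, mul_comm m n,
      hG.pow_eq, mul_assoc, ← pow_mul, ← pow_add]
    congr 2
    subst ha hb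
    simp only [Nat.succ_sub_one]
    rw [Nat.succ_mul, Nat.add_succ_sub_one, mul_comm a]
    omega
  · rw [pow_slash_eq _ (hφ γ) m]
    congr 1
    exact (stdAddChar_castHom n m _).symm

/-- From `n` to `n m`. -/
theorem IsKummer.zmodMul {x : LaurentSeries ℂ} {φ : Additive (Gamma0 N) →+ ZMod n}
    (h : IsKummer N x φ) : IsKummer N (x ^ m) ((zmodMulHom n m).comp φ) := by
  obtain ⟨k, u, v, G, hu, hv, rfl, hG, hφ⟩ := h
  obtain ⟨a, ha⟩ := Nat.exists_eq_succ_of_ne_zero (NeZero.ne n)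
  obtain ⟨b, hb⟩ := Nat.exists_eq_succ_of_ne_zero (NeZero.ne m)
  have hk : k + (b : ℤ) * k = (m : ℤ) * k := by rw [hb]; push_cast; ring
  refine ⟨(m : ℤ) * k, mformPow u m, mformPow v m, G * ⇑(mformPow v b), mformPow_ne_zero hu m,
    mformPow_ne_zero hv m, by rw [qL_mformPow, qL_mformPow, div_pow],
    ⟨hG.mdiff.mul (ModularFormClass.holo _), fun τ => ?_⟩, fun γ => ?_⟩
  · rw [Pi.mul_apply, mformPow_apply, mformPow_apply, mformPow_apply, mul_pow, pow_mul, hG.pow_eq,
      mul_pow, ← pow_mul, ← pow_mul, ← pow_mul, mul_assoc, ← pow_add]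
    congr 2
    subst ha hb
    simp only [Nat.succ_sub_one]
    rw [Nat.succ_mul a (b + 1), Nat.add_succ_sub_one]
    simp only [Nat.succ_eq_add_one]
    ring
  · show (G * ⇑(mformPow v b)) ∣[(m : ℤ) * k] _ = _
    rw [← hk, ModularForm.mul_slash_SL2, hφ γ, mform_slash γ.2, AddMonoidHom.comp_apply,
      stdAddChar_zmodMulHom, smul_mul_assoc]

end Rel

variable {L : Type*} [Field L] [Algebra ℚ L] [IsAlgClosed L] (e : L →+* ℂ)
variable (N : ℕ) [NeZero N] (n m : ℕ) [NeZero n] [NeZero m]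

local notation "F_L" => laurentBaseChange L (modularFunctionFieldFull N)

theorem kummerMap_nsmul (z : Pic0.torsion L F_L (n * m)) (w : Pic0.torsion L F_L n)
    (h : (w : Pic0 L F_L) = m • (z : Pic0 L F_L)) :
    kummerMap e N n w = parEllHomsMap (ZMod.castHom (dvd_mul_right n m) (ZMod n)).toAddMonoidHom
      (kummerMap e N (n * m) z) := by
  obtain ⟨D, f, hD, hf, hDf, hK⟩ := exists_kummer_data e N (n * m) z
  refine kummerMap_eq e N n (D := m • D) ?_ hf (fun v => ?_) hK.castHom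
  · rw [h, ← hD]
    rfl
  · rw [AddSubgroup.coe_nsmul, ← mul_smul, hDf v]

theorem kummerMap_inclusion (z : Pic0.torsion L F_L n) (w : Pic0.torsion L F_L (n * m))
    (h : (w : Pic0 L F_L) = (z : Pic0 L F_L)) :
    kummerMap e N (n * m) w = parEllHomsMap (zmodMulHom n m) (kummerMap e N n z) := by
  obtain ⟨D, f, hD, hf, hDf, hK⟩ := exists_kummer_data e N n z
  refine kummerMap_eq e N (n * m) (D := D) (by rw [h, hD]) (f := f ^ m) (pow_ne_zero m hf)
    (fun v => ?_) ?_
  · rw [FF.ord_pow, ← hDf v]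
    simp only [Finsupp.coe_smul, Pi.smul_apply, nsmul_eq_mul]
    push_cast
    ring
  · rw [SubmonoidClass.coe_pow, map_pow]
    exact hK.zmodMul

omit m in
/-- Changing the embedding by an automorphism of `L`. -/
theorem kummerMap_galois_smul (σ : L ≃ₐ[ℚ] L) (z : Pic0.torsion L F_L n) :
    kummerMap e N n (arithmeticGalois (modularFunctionFieldFull N) σ • z)
      = kummerMap (e.comp (σ : L →+* L)) N n z := by
  set g := arithmeticGalois (L := L) (modularFunctionFieldFull N) σ with hg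
  obtain ⟨D, f, hD, hf, hDf, hK⟩ := exists_kummer_data (e.comp (σ : L →+* L)) N n z
  refine kummerMap_eq e N n (D := SemilinearAut.degZeroSMulHom g D) ?_ (f := g • f)
    (by simpa using hf) (fun v => ?_) ?_
  · rw [SemilinearAut.coe_torsion_smul, ← hD, SemilinearAut.pic0_smul_mk]
  · rw [SemilinearAut.coe_degZeroSMulHom, Finsupp.coe_smul, Pi.smul_apply,
      SemilinearAut.divisor_smul_apply]
    have h := SemilinearAut.ord_smul g (g⁻¹ • v) f
    rw [smul_inv_smul] at h
    rw [h, ← hDf (g⁻¹ • v)]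
    rfl
  · rw [hg, coe_arithmeticGalois_smul, coeffMap_coeffMap]
    exact hK

omit m in
theorem kummerMap_conj (z : Pic0.torsion L F_L n) :
    kummerMap ((starRingEnd ℂ).comp e) N n z = -parEllHomsJ N (ZMod n) (kummerMap e N n z) := by
  obtain ⟨D, f, hD, hf, hDf, hK⟩ := exists_kummer_data e N n z
  refine kummerMap_eq _ N n (D := D) hD hf hDf ?_
  rw [← coeffMap_coeffMap]
  exact hK.conj_coeff

end Fermat.Agent.HK
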