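import Fermat.Agent.HK.Kummer.EllParInv
import Fermat.Agent.HK.Kummer.JZero
import Fermat.Agent.HK.MultiplierSeries
import Fermat.Agent.MF.PlaceOrbits.Corollaries
import Fermat.Agent.FF.KaehlerDivX

/-!
# Surjectivity of the Kummer map over `ℂ`

For a character `φ`, a form `E` of weight `4` with multiplier `φ` gives `x = E ^ n / E₄ ^ n`
with `n`-divisible divisor and Kummer character `φ`.
-/

set_option autoImplicit false

noncomputable section

open UpperHalfPlane CongruenceSubgroup AlgebraicCurve ModularCurve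
open scoped MatrixGroups ModularForm Manifold

namespace Fermat.Agent.HK

open Fermat.Agent.MF (MForm qL MFField)
open Fermat.Agent.MF.PlaceOrbits (ptOrd JData HOrbits orbitSize)

variable {N : ℕ} [NeZero N] {k : ℤ} {E E' : ℍ → ℂ} {n : ℕ}

theorem isOrdDivisible_of_pow_ratio {K : Type*} [Field K] [IsAlgClosed K] {ι : K →+* ℂ}
    {F : IntermediateField K (LaurentSeries K)} (D : JData ι N F)
    {f : F} (hE : IsEllParInv N k E) (hE' : IsEllParInv N k E')
    {u v : MForm N ((n : ℤ) * k)} (hu0 : u ≠ 0) (hv0 : v ≠ 0) (hu : ⇑u = E ^ n) (hv : ⇑v = E' ^ n)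
    (hf : coeffMap ι (f : LaurentSeries K) = qL u / qL v) : IsOrdDivisible K n f := by
  have hf0 : f ≠ 0 := by
    rintro rfl
    rw [ZeroMemClass.coe_zero, map_zero, eq_comm, div_eq_zero_iff, MF.qL_mform_eq_zero_iff,
      MF.qL_mform_eq_zero_iff] at hf
    exact hf.elim hu0 hv0
  have hef : (D.emb f : LaurentSeries ℂ) = qL u / qL v := by rw [D.coe_emb, hf]
  have := D.isFunctionField
  refine ⟨hf0, fun P => ?_⟩
  rcases lt_or_ge (P.ord D.j) 0 with hneg | hnn
  · obtain ⟨π, hπ⟩ := D.exists_cuspEquiv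
    have hP : 0 < P.ord D.j⁻¹ := by rw [P.ord_inv]; omega
    obtain ⟨o, ho⟩ := π.surjective ⟨P, hP⟩
    induction o using Quotient.inductionOn with
    | h q =>
      induction q using QuotientGroup.induction_on with
      | H g =>
        obtain ⟨-, -, h⟩ := hπ (QuotientGroup.mk g)
        have hPg := congrArg Subtype.val ho
        change (π (Quotient.mk'' (QuotientGroup.mk g))).1 = P at hPg
        have h := h f
        rw [hPg] at h
        set s := orbitSize ModularGroup.T (QuotientGroup.mk g : MF.Cosets.X0 N) with hs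
        have hmem : g⁻¹ * ModularGroup.T ^ (s : ℤ) * g ∈ Gamma0 N := by
          have h1 : (QuotientGroup.mk (ModularGroup.T ^ (s : ℤ) * g) : MF.Cosets.X0 N) =
              QuotientGroup.mk g := by
            rw [zpow_natCast]
            exact MF.PlaceOrbits.pow_orbitSize_smul ModularGroup.T (QuotientGroup.mk g : MF.Cosets.X0 N)
          simpa [mul_assoc] using (Gamma0 N).inv_mem (QuotientGroup.eq.1 h1)
        obtain ⟨a, ha⟩ := hE.dvd_mul_order_qExpansion hmem
        obtain ⟨b, hb⟩ := hE'.dvd_mul_order_qExpansion hmem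
        rw [JData.cuspVal, Valuation.comap_apply, MF.PlaceOrbits.cuspValAt_mk,
          (MF.PlaceOrbits.cuspOrder N g⁻¹).log_val hu0 hv0 hef] at h
        change (N : ℤ) * P.ord f = (s : ℤ) *
          -(((qExpansion (N : ℝ) (⇑v ∣[(n : ℤ) * k] g⁻¹)).order.toNat : ℤ) -
            (qExpansion (N : ℝ) (⇑u ∣[(n : ℤ) * k] g⁻¹)).order.toNat) at h
        rw [hu, hv, hE.order_qExpansion_pow, hE'.order_qExpansion_pow] at h
        push_cast at h
        refine ⟨a - b, mul_left_cancel₀ (Nat.cast_ne_zero.2 (NeZero.ne N)) ?_⟩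
        linear_combination h + (n : ℤ) * ha - (n : ℤ) * hb
  · have hj := (MF.PlaceOrbits.pl_mem_of_ord_nonneg P hnn)
    obtain ⟨a, ha⟩ := FF.KS.exists_ord_sub_pos (Place.deg_eq_one_of_isAlgClosed_of_finite P) hj
      (fun c hc => D.transcendental_j (hc ▸ isAlgebraic_algebraMap c))
    obtain ⟨τ, hτ⟩ := MF.kleinJ_surjective (ι a)
    obtain ⟨h, hg⟩ := MF.PlaceOrbits.exists_isStabGen τ
    obtain ⟨π, hπ⟩ := D.exists_pointEquiv hτ hg
    obtain ⟨o, ho⟩ := π.surjective ⟨P, ha⟩
    induction o using Quotient.inductionOn with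
    | h q =>
      induction q using QuotientGroup.induction_on with
      | H g =>
        obtain ⟨-, -, h'⟩ := hπ (QuotientGroup.mk g)
        have hPg := congrArg Subtype.val ho
        change (π (Quotient.mk'' (QuotientGroup.mk g))).1 = P at hPg
        have h' := h' f
        rw [hPg] at h'
        set s := orbitSize h (QuotientGroup.mk g : MF.Cosets.X0 N) with hs
        have hmem : g⁻¹ * h ^ s * g ∈ Gamma0 N := by
          have h1 : (QuotientGroup.mk (h ^ s * g) : MF.Cosets.X0 N) = QuotientGroup.mk g :=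
            MF.PlaceOrbits.pow_orbitSize_smul h (QuotientGroup.mk g : MF.Cosets.X0 N)
          simpa [mul_assoc] using (Gamma0 N).inv_mem (QuotientGroup.eq.1 h1)
        obtain ⟨d, hd⟩ := hE.dvd_mul_ptOrd_sub hE' hg hmem
        rw [JData.pointVal, Valuation.comap_apply, MF.PlaceOrbits.ptValAt_mk, MF.PlaceOrbits.ptVal,
          (MF.PlaceOrbits.ptOrder N (g⁻¹ • τ)).log_val hu0 hv0 hef] at h'
        change (MF.kleinJDegree τ : ℤ) * P.ord f =
          (s : ℤ) * -(ptOrd ⇑v (g⁻¹ • τ) - ptOrd ⇑u (g⁻¹ • τ)) at h'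
        rw [hu, hv, ptOrd_pow hE.mdiff hE.ne_zero, ptOrd_pow hE'.mdiff hE'.ne_zero] at h'
        refine ⟨d, mul_left_cancel₀ (Nat.cast_ne_zero.2 (MF.kleinJDegree_pos τ).ne') ?_⟩
        linear_combination h' + (n : ℤ) * hd

/-- The `n`-th power of `E`, as a modular form. -/
def ellParPow (hE : IsEllParInv N k E)
    (hinv : ∀ γ ∈ Gamma0 N, (E ∣[k] γ) ^ n = E ^ n) : MForm N ((n : ℤ) * k) where
  toFun := E ^ n
  slash_action_eq' := by
    rintro _ ⟨γ, hγ, rfl⟩
    exact (pow_slash n k E γ).trans (hinv γ hγ)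
  holo' := hE.mdiff.pow n
  bdd_at_cusps' := by
    intro c hc
    rw [Subgroup.IsArithmetic.isCusp_iff_isCusp_SL2Z] at hc
    rw [OnePoint.isBoundedAt_iff_forall_SL2Z hc]
    intro A _
    have hb : ∀ j : ℕ, IsBoundedAtImInfty ((E ∣[k] A) ^ j) := by
      intro j
      induction j with
      | zero => simpa using! Filter.const_boundedAtFilter _ (1 : ℂ)
      | succ j ihj => rw [pow_succ]; exact ihj.mul (hE.bdd A)
    show IsBoundedAtImInfty ((E ^ n) ∣[(n : ℤ) * k] A)
    rw [show (E ^ n) ∣[(n : ℤ) * k] A = (E ∣[k] A) ^ n from pow_slash n k E A]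
    exact hb n

theorem kummerMap_id_surjective (N n : ℕ) [NeZero N] [NeZero n] :
    Function.Surjective (kummerMap (RingHom.id ℂ) N n) := by
  have hn : n ≠ 0 := NeZero.ne n
  set D := MF.PlaceOrbits.jData (RingHom.id ℂ) N
  have := D.isFunctionField
  refine IsKummerRel.hom_surjective _ _ hn fun φ => ?_
  obtain ⟨E, hEd, hE0, -, hEm, hEb⟩ := exists_form_with_multiplier φ
  have hone : ∀ γ : Gamma0 N, IsNonHyperbolic (γ : SL(2, ℤ)) → charValue N φ γ = 1 := fun γ hγ => by
    rw [charValue, mem_parEllHoms.mp φ.2 γ hγ, AddChar.map_zero_eq_one]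
  have hE : IsEllParInv N 4 E := ⟨hEd, hE0, hEb, fun γ hγ hnh => by
    rw [hEm ⟨γ, hγ⟩, hone _ hnh, one_smul]⟩
  have hinv : ∀ γ ∈ Gamma0 N, (E ∣[(4 : ℤ)] γ) ^ n = E ^ n := fun γ hγ => by
    rw [hEm ⟨γ, hγ⟩, smul_pow, charValue, ← AddChar.map_nsmul_eq_pow]
    simp
  set w : MForm N 4 := MF.ofLevelOne N ModularForm.E₄ with hw
  have hw0 : w ≠ 0 := by
    rw [hw, ne_eq, MF.ofLevelOne_eq_zero_iff]
    exact fun h => MF.coe_E₄_ne_zero (by rw [h]; rfl)
  set u := ellParPow hE hinv with hu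
  set v := mformPow w n with hv
  have hu0 : u ≠ 0 := by
    obtain ⟨z, hz⟩ := exists_apply_ne_zero hE0
    exact fun h => pow_ne_zero n hz (congrArg (fun F : MForm N ((n : ℤ) * 4) => F z) h)
  have hv0 : v ≠ 0 := mformPow_ne_zero hw0 n
  have hmem : qL u / qL v ∈ laurentBaseChange ℂ (modularFunctionFieldFull N) := by
    rw [← MF.MFField_eq_laurentBaseChange]; exact MF.div_mem_MFField u v
  refine ⟨⟨_, hmem⟩, isOrdDivisible_of_pow_ratio D hE
    (isEllParInv_mform hw0) hu0 hv0 rfl (coe_mformPow w n) (by rw [coeffMap_id]), ?_⟩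
  refine ⟨_, u, v, E * ⇑(mformPow w (n - 1)), hu0, hv0, ?_,
    ⟨hEd.mul (ModularFormClass.holo _), fun τ => ?_⟩, ?_⟩
  · rw [coe_toMFField]
    exact coeffMap_id _
  · show (E τ * mformPow w (n - 1) τ) ^ n = E τ ^ n * v τ ^ (n - 1)
    rw [mul_pow, mformPow_apply, hv, mformPow_apply, ← pow_mul, ← pow_mul, mul_comm (n - 1) n]
  · have h := (show HasMult 4 E (φ : Additive (Gamma0 N) →+ ZMod n) from hEm).mul
      (hasMult_mform (n := n) (mformPow w (n - 1)))
    rw [add_zero] at h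
    obtain ⟨m, rfl⟩ := Nat.exists_eq_succ_of_ne_zero hn
    rwa [show ((m.succ : ℕ) : ℤ) * 4 = 4 + ((m.succ - 1 : ℕ) : ℤ) * 4 by push_cast [Nat.succ_sub_one]; ring]

/-- `Pic⁰[n] ≅ parEllHoms` over `ℂ`. -/
theorem kummerMap_id_bijective (N n : ℕ) [NeZero N] [NeZero n] :
    Function.Bijective (kummerMap (RingHom.id ℂ) N n) :=
  ⟨kummerMap_injective _ N n, kummerMap_id_surjective N n⟩

end Fermat.Agent.HK
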